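import Fermat.Agent.S56.Spec
import Fermat.Prelude.Def_GaloisRep_ComplexConjugation

/-!
# S56, TB layer 2, leaf ODD (helper596): complex conjugation

Under the standing hypotheses `Hyp` of S56:
* `isCycExp_complexConjugation` : complex conjugation acts on `μ_p` by `μ ↦ μ ^ (p - 1)`;
* `det_rho_complexConjugation`  : `det ρ̄(c) = -1`;
* `trace_rho_complexConjugation` : `tr ρ̄(c) = 0`;
* `rho_complexConjugation_sq`   : `ρ̄(c)² = 1`;
* `eq_smul_of_commute_complexConjugation` : a trace-zero endomorphism commuting with `ρ̄(c)` is a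
  multiple of `ρ̄(c)`  (so `H⁰(G_∞, ad⁰ρ̄)` is the line spanned by `ρ̄(c)`);
* `trace_mul_eq_zero_of_anticommute` : a trace-zero endomorphism anticommuting with `ρ̄(c)` is
  orthogonal to `ρ̄(c)` for the trace form.
-/

set_option autoImplicit false
set_option linter.unusedSectionVars false
set_option linter.unusedVariables false
set_option linter.style.haveILetI false

namespace Fermat.Agent.S56.H596

noncomputable section

open IsLocalRing Polynomial
open Fermat.Agent.S56

/-! ### Matrices -/

section Mat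

variable {k : Type} [Field k]

theorem mat2_trace_eq_zero_of_sq (A : Matrix (Fin 2) (Fin 2) k) (hsq : A * A = 1)
    (hdet : A.det = -1) : A.trace = 0 := by
  by_contra ht
  rw [Matrix.trace_fin_two] at ht
  rw [Matrix.det_fin_two] at hdet
  have h00 := congrFun (congrFun hsq 0) 0
  have h01 := congrFun (congrFun hsq 0) 1
  have h10 := congrFun (congrFun hsq 1) 0
  have h11 := congrFun (congrFun hsq 1) 1
  simp only [Matrix.mul_apply, Fin.sum_univ_two, Matrix.one_apply_eq, Matrix.one_apply_ne,
    ne_eq, one_ne_zero, not_false_eq_true, zero_ne_one, Fin.isValue] at h00 h01 h10 h11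
  have ha : A 0 0 * (A 0 0 + A 1 1) = 0 := by linear_combination h00 + hdet
  have hd : A 1 1 * (A 0 0 + A 1 1) = 0 := by linear_combination h11 + hdet
  have ha0 : A 0 0 = 0 := (mul_eq_zero.1 ha).resolve_right ht
  have hd0 : A 1 1 = 0 := (mul_eq_zero.1 hd).resolve_right ht
  exact ht (by rw [ha0, hd0, add_zero])

theorem mat2_mul_add_mul (X Y : Matrix (Fin 2) (Fin 2) k) (hX : X.trace = 0)
    (hY : Y.trace = 0) : X * Y + Y * X = (X * Y).trace • (1 : Matrix (Fin 2) (Fin 2) k) := by
  rw [Matrix.trace_fin_two] at hX hY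
  have hX' : X 1 1 = - X 0 0 := by linear_combination hX
  have hY' : Y 1 1 = - Y 0 0 := by linear_combination hY
  ext i j
  fin_cases i <;> fin_cases j <;>
    simp [Matrix.mul_apply, Fin.sum_univ_two, Matrix.trace_fin_two, hX', hY'] <;> ring

end Mat

/-! ### Endomorphisms of a plane -/

section End2

variable {k : Type} [Field k] {V : Type} [AddCommGroup V] [Module k V]

theorem end2_trace_eq_zero_of_sq (hV : Module.finrank k V = 2) (f : Module.End k V)
    (hsq : f * f = 1) (hdet : LinearMap.det f = -1) : LinearMap.trace k V f = 0 := by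
  haveI : Module.Finite k V := Module.finite_of_finrank_eq_succ hV
  let b : Module.Basis (Fin 2) k V := Module.finBasisOfFinrankEq k V hV
  rw [LinearMap.trace_eq_matrix_trace k b]
  apply mat2_trace_eq_zero_of_sq
  · rw [← LinearMap.toMatrix_mul, hsq, LinearMap.toMatrix_one]
  · rw [LinearMap.det_toMatrix, hdet]

theorem end2_mul_add_mul (hV : Module.finrank k V = 2) (f g : Module.End k V)
    (hf : LinearMap.trace k V f = 0) (hg : LinearMap.trace k V g = 0) :
    f * g + g * f = LinearMap.trace k V (f * g) • (1 : Module.End k V) := by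
  haveI : Module.Finite k V := Module.finite_of_finrank_eq_succ hV
  let b : Module.Basis (Fin 2) k V := Module.finBasisOfFinrankEq k V hV
  rw [LinearMap.trace_eq_matrix_trace k b] at hf hg
  apply (LinearMap.toMatrix b b).injective
  rw [map_add, LinearMap.toMatrix_mul, LinearMap.toMatrix_mul, map_smul, LinearMap.toMatrix_one,
    LinearMap.trace_eq_matrix_trace k b (f * g), LinearMap.toMatrix_mul]
  exact mat2_mul_add_mul _ _ hf hg

end End2

/-! ### Complex conjugation -/

section CC

/-- Complex conjugation inverts roots of unity. -/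
theorem complexConjugation_rootOfUnity {N : ℕ} (hN : N ≠ 0) {z : Qb} (hz : z ^ N = 1) :
    complexConjugation z = z⁻¹ := by
  apply complexEmbedding.toRingHom.injective
  show complexEmbedding (complexConjugation z) = complexEmbedding z⁻¹
  rw [complexEmbedding_complexConjugation, map_inv₀]
  have h1 : (complexEmbedding z) ^ N = 1 := by rw [← map_pow, hz, map_one]
  exact (Complex.inv_eq_conj (Complex.norm_eq_one_of_pow_eq_one h1 hN)).symm

theorem isCycExp_complexConjugation (p : ℕ) (hp : p ≠ 0) :
    IsCycExp p complexConjugation (p - 1) := by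
  intro μ hμ
  rw [complexConjugation_rootOfUnity hp hμ]
  have hμ0 : μ ≠ 0 := by
    rintro rfl
    rw [zero_pow hp] at hμ
    exact zero_ne_one hμ
  apply mul_left_cancel₀ hμ0
  rw [mul_inv_cancel₀ hμ0, ← pow_succ', Nat.sub_add_cancel (Nat.pos_of_ne_zero hp), hμ]

variable {𝒪 : Type} [CommRing 𝒪] [IsDomain 𝒪] [IsDiscreteValuationRing 𝒪] {p : ℕ}
  {ρbar : ResidualGaloisRep (ResidueField 𝒪)} {S Smin : Finset ℕ}

theorem natCast_p_eq_zero (hyp : Hyp 𝒪 p ρbar S Smin) : (p : ResidueField 𝒪) = 0 := by
  have := (residue_eq_zero_iff _).2 hyp.hp𝒪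
  rwa [map_natCast] at this

theorem two_ne_zero_of_hyp (hyp : Hyp 𝒪 p ρbar S Smin) : (2 : ResidueField 𝒪) ≠ 0 := by
  intro h2
  have hodd : Odd p := hyp.hp.odd_of_ne_two hyp.hp2
  obtain ⟨m, hm⟩ := hodd
  have h := natCast_p_eq_zero hyp
  rw [hm, Nat.cast_add, Nat.cast_mul, Nat.cast_ofNat, h2, zero_mul, zero_add, Nat.cast_one] at h
  exact one_ne_zero h

theorem rho_complexConjugation_sq (ρbar : ResidualGaloisRep (ResidueField 𝒪)) :
    ρbar.ρ complexConjugation * ρbar.ρ complexConjugation = 1 := by
  rw [← map_mul, complexConjugation_mul_self, map_one]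

theorem det_rho_complexConjugation (hyp : Hyp 𝒪 p ρbar S Smin) :
    LinearMap.det (ρbar.ρ complexConjugation) = -1 := by
  have h1 := hyp.hdet.2 1 complexConjugation (p - 1) (by
    intro μ hμ
    rw [pow_one] at hμ
    exact isCycExp_complexConjugation p hyp.hp.ne_zero μ hμ)
  have hp0 := natCast_p_eq_zero hyp
  rw [pow_one, hp0, Ideal.span_singleton_eq_bot.2 rfl, Ideal.mem_bot, sub_eq_zero] at h1
  have h2 : ((p - 1 : ℕ) : ResidueField 𝒪) = -1 := by
    rw [Nat.cast_sub hyp.hp.one_le, hp0, Nat.cast_one, zero_sub]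
  rw [← h2]
  exact h1

theorem trace_rho_complexConjugation (hyp : Hyp 𝒪 p ρbar S Smin) :
    LinearMap.trace (ResidueField 𝒪) ρbar.V (ρbar.ρ complexConjugation) = 0 :=
  end2_trace_eq_zero_of_sq ρbar.finrank_eq _ (rho_complexConjugation_sq ρbar)
    (det_rho_complexConjugation hyp)

/-- **ODD**: a trace-zero endomorphism commuting with `ρ̄(c)` is a multiple of `ρ̄(c)`. -/
theorem eq_smul_of_commute_complexConjugation (hyp : Hyp 𝒪 p ρbar S Smin)
    (m : Module.End (ResidueField 𝒪) ρbar.V)
    (htr : LinearMap.trace (ResidueField 𝒪) ρbar.V m = 0)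
    (hcomm : ρbar.ρ complexConjugation * m = m * ρbar.ρ complexConjugation) :
    m = (LinearMap.trace (ResidueField 𝒪) ρbar.V (m * ρbar.ρ complexConjugation) / 2) •
      ρbar.ρ complexConjugation := by
  have h2 := two_ne_zero_of_hyp hyp
  have h1 := end2_mul_add_mul ρbar.finrank_eq m (ρbar.ρ complexConjugation) htr
    (trace_rho_complexConjugation hyp)
  generalize LinearMap.trace (ResidueField 𝒪) ρbar.V (m * ρbar.ρ complexConjugation) = t at h1 ⊢
  rw [hcomm] at h1
  have h3 := congrArg (fun x => x * ρbar.ρ complexConjugation) h1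
  simp only [add_mul, mul_assoc, rho_complexConjugation_sq, mul_one, smul_mul_assoc,
    one_mul] at h3
  rw [div_eq_inv_mul, mul_smul, ← h3, ← two_smul (ResidueField 𝒪) m, smul_smul,
    inv_mul_cancel₀ h2, one_smul]

/-- **ODD (anti-invariants)**: a trace-zero endomorphism anticommuting with `ρ̄(c)` is orthogonal
to `ρ̄(c)` for the trace form. -/
theorem trace_mul_eq_zero_of_anticommute (hyp : Hyp 𝒪 p ρbar S Smin)
    (m : Module.End (ResidueField 𝒪) ρbar.V)
    (htr : LinearMap.trace (ResidueField 𝒪) ρbar.V m = 0)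
    (hanti : ρbar.ρ complexConjugation * m = -(m * ρbar.ρ complexConjugation)) :
    LinearMap.trace (ResidueField 𝒪) ρbar.V (m * ρbar.ρ complexConjugation) = 0 := by
  have h1 := end2_mul_add_mul ρbar.finrank_eq m (ρbar.ρ complexConjugation) htr
    (trace_rho_complexConjugation hyp)
  rw [hanti, add_neg_cancel] at h1
  have h2 := congrArg (LinearMap.trace (ResidueField 𝒪) ρbar.V) h1
  rw [map_zero, map_smul, LinearMap.trace_one, ρbar.finrank_eq, smul_eq_mul] at h2
  rcases mul_eq_zero.1 h2.symm with h | h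
  · exact h
  · exact absurd (by exact_mod_cast h) (two_ne_zero_of_hyp hyp)

end CC

end

end Fermat.Agent.S56.H596
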