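import Mathlib
import Fermat.Agent.S53.H596.PowerSeriesCNL

/-!
# S56, piece TAN/T1 (helper596): tangent count ⟹ quotient of a power series ring

Let `𝒪` be a complete Noetherian local ring with residue field `k`, and let `R` be a complete
Noetherian local `𝒪`-algebra with `𝒪 → R` local and `𝒪 → R/𝔪_R` onto.  If there are at most
`|k| ^ r` homomorphisms of `𝒪`-algebras `R → k[ε]`, then `R` is a quotient of
`𝒪⟦X₁, …, X_r⟧`.

Main statements (all in `Fermat.Agent.S56.H596`):
* `exists_algHom_dualNumber_of_min`   : for a minimal system `x` of generators of `𝔪_R` modulo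
  `𝔪_𝒪 R + 𝔪_R²` and any `c : Fin d → k` there is `φ : R →ₐ[𝒪] k[ε]` with `φ (x i) = c i • ε`;
* `exists_surjective_of_forall_injective_le` : the injective-family form of the tangent bound;
* `exists_surjective_of_card_le`, `exists_surjective_of_finrank_le` : counting forms.
-/

set_option autoImplicit false
set_option linter.unusedSectionVars false
set_option linter.unusedVariables false
set_option linter.style.haveILetI false

namespace Fermat.Agent.S56.H596

noncomputable section

open IsLocalRing Fermat.Agent.S53.H596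

/-! ### Linear part of a power series -/

section LinPart

variable {σ : Type*} [Fintype σ] [DecidableEq σ] {𝒪 : Type*} [CommRing 𝒪]

/-- The part of total degree `≤ 1` of a power series. -/
def linPart (f : MvPowerSeries σ 𝒪) : MvPowerSeries σ 𝒪 :=
  MvPowerSeries.C (MvPowerSeries.coeff 0 f) +
    ∑ i, MvPowerSeries.C (MvPowerSeries.coeff (Finsupp.single i 1) f) * MvPowerSeries.X i

theorem eq_zero_or_single_of_degree_lt_two (e : σ →₀ ℕ) (he : e.degree < 2) :
    e = 0 ∨ ∃ i, e = Finsupp.single i 1 := by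
  by_cases h0 : e = 0
  · exact Or.inl h0
  right
  obtain ⟨i, hi⟩ : ∃ i, e i ≠ 0 := by
    by_contra hcon
    simp only [not_exists, not_not] at hcon
    exact h0 (Finsupp.ext hcon)
  refine ⟨i, ?_⟩
  have hsum : e.degree = ∑ j, e j := Finsupp.degree_eq_sum e
  have hsplit : ∑ j, e j = e i + ∑ j ∈ Finset.univ.erase i, e j :=
    (Finset.add_sum_erase _ _ (Finset.mem_univ i)).symm
  have hi1 : e i = 1 := by omega
  have hrest : ∑ j ∈ Finset.univ.erase i, e j = 0 := by omega
  ext j
  by_cases hji : j = i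
  · subst hji
    simp [hi1]
  · have : e j = 0 := by
      have := (Finset.sum_eq_zero_iff.1 hrest) j (Finset.mem_erase.2 ⟨hji, Finset.mem_univ j⟩)
      exact this
    rw [this, Finsupp.single_apply, if_neg (fun h => hji h.symm)]

theorem coeff_zero_linPart (f : MvPowerSeries σ 𝒪) :
    MvPowerSeries.coeff 0 (linPart f) = MvPowerSeries.coeff 0 f := by
  classical
  simp [linPart]

theorem coeff_single_linPart (f : MvPowerSeries σ 𝒪) (j : σ) :
    MvPowerSeries.coeff (Finsupp.single j 1) (linPart f) =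
      MvPowerSeries.coeff (Finsupp.single j 1) f := by
  classical
  simp [linPart, MvPowerSeries.coeff_C, MvPowerSeries.coeff_C_mul, MvPowerSeries.coeff_X,
    Finsupp.single_left_inj, Finset.sum_ite_eq]

theorem sub_linPart_mem_span_X_sq (f : MvPowerSeries σ 𝒪) :
    f - linPart f ∈
      (Ideal.span (Set.range (MvPowerSeries.X : σ → MvPowerSeries σ 𝒪))) ^ 2 := by
  have h := sub_truncTotal_mem_span_X_pow 2 (f - linPart f)
  have h0 : (MvPowerSeries.truncTotal 2 (f - linPart f) : MvPolynomial σ 𝒪) = 0 := by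
    ext e
    rw [MvPolynomial.coeff_zero]
    by_cases he : e.degree < 2
    · rw [MvPowerSeries.coeff_truncTotal _ he, map_sub, sub_eq_zero]
      rcases eq_zero_or_single_of_degree_lt_two e he with rfl | ⟨i, rfl⟩
      · exact (coeff_zero_linPart f).symm
      · exact (coeff_single_linPart f i).symm
    · exact MvPowerSeries.coeff_truncTotal_eq_zero _ (not_lt.1 he)
  rw [h0] at h
  simpa using h

/-- Any algebra map out of `𝒪⟦X⟧` sending the variables into an ideal `I` is, modulo `I²`,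
given by the linear part. -/
theorem map_sub_linear_mem_sq {A : Type*} [CommRing A] [Algebra 𝒪 A]
    (χ : MvPowerSeries σ 𝒪 →ₐ[𝒪] A) (I : Ideal A) (hχ : ∀ i, χ (MvPowerSeries.X i) ∈ I)
    (f : MvPowerSeries σ 𝒪) :
    χ f - (algebraMap 𝒪 A (MvPowerSeries.coeff 0 f) +
      ∑ i, algebraMap 𝒪 A (MvPowerSeries.coeff (Finsupp.single i 1) f) *
        χ (MvPowerSeries.X i)) ∈ I ^ 2 := by
  have hC : ∀ a : 𝒪, χ (MvPowerSeries.C a) = algebraMap 𝒪 A a := by
    intro a
    have : (MvPowerSeries.C a : MvPowerSeries σ 𝒪) = algebraMap 𝒪 (MvPowerSeries σ 𝒪) a := by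
      rw [MvPowerSeries.algebraMap_apply]
      rfl
    rw [this, AlgHom.commutes]
  have hlin : χ (linPart f) = algebraMap 𝒪 A (MvPowerSeries.coeff 0 f) +
      ∑ i, algebraMap 𝒪 A (MvPowerSeries.coeff (Finsupp.single i 1) f) *
        χ (MvPowerSeries.X i) := by
    simp only [linPart, map_add, map_sum, map_mul, hC]
  rw [← hlin, ← map_sub]
  have hle : Ideal.map χ (Ideal.span (Set.range (MvPowerSeries.X : σ → MvPowerSeries σ 𝒪))) ≤ I := by
    rw [Ideal.map_span, Ideal.span_le]
    rintro _ ⟨_, ⟨i, rfl⟩, rfl⟩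
    exact hχ i
  have h1 : χ (f - linPart f) ∈ Ideal.map χ
      ((Ideal.span (Set.range (MvPowerSeries.X : σ → MvPowerSeries σ 𝒪))) ^ 2) :=
    Ideal.mem_map_of_mem _ (sub_linPart_mem_span_X_sq f)
  rw [Ideal.map_pow] at h1
  exact Ideal.pow_right_mono hle 2 h1

end LinPart

/-! ### Minimal systems of generators of the relative cotangent space -/

section Gen

variable (𝒪 : Type*) [CommRing 𝒪] [IsLocalRing 𝒪]
variable (R : Type*) [CommRing R] [IsLocalRing R] [Algebra 𝒪 R]

/-- `GenProp 𝒪 R d`: the maximal ideal of `R` is generated, modulo `𝔪_𝒪 R + 𝔪_R²`, by `d`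
elements. -/
def GenProp (d : ℕ) : Prop :=
  ∃ x : Fin d → R, (∀ i, x i ∈ maximalIdeal R) ∧
    maximalIdeal R ≤ Ideal.map (algebraMap 𝒪 R) (maximalIdeal 𝒪) ⊔
      Ideal.span (Set.range x) ⊔ maximalIdeal R ^ 2

variable {𝒪 R}

theorem exists_genProp [IsNoetherianRing R] : ∃ d, GenProp 𝒪 R d := by
  obtain ⟨n, s, hs⟩ := Submodule.fg_iff_exists_fin_generating_family.1
    (IsNoetherian.noetherian (maximalIdeal R))
  refine ⟨n, s, fun i => ?_, ?_⟩
  · rw [← hs]
    exact Submodule.subset_span ⟨i, rfl⟩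
  · have : maximalIdeal R = Ideal.span (Set.range s) := hs.symm
    rw [this]
    exact le_sup_of_le_left le_sup_right

theorem GenProp.mono {d r : ℕ} (hdr : d ≤ r) (h : GenProp 𝒪 R d) : GenProp 𝒪 R r := by
  obtain ⟨x, hx, hgen⟩ := h
  refine ⟨fun i => if h : (i : ℕ) < d then x ⟨i, h⟩ else 0, fun i => ?_, ?_⟩
  · by_cases h : (i : ℕ) < d
    · simp only [h, dif_pos]
      exact hx _
    · simp only [h, dif_neg, not_false_eq_true]
      exact Ideal.zero_mem _
  · refine hgen.trans (sup_le_sup_right (sup_le_sup_left ?_ _) _)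
    rw [Ideal.span_le]
    rintro _ ⟨i, rfl⟩
    apply Ideal.subset_span
    refine ⟨⟨i, lt_of_lt_of_le i.2 hdr⟩, ?_⟩
    simp

/-- **Independence from minimality.** If `x` is a system of `d` generators of `𝔪_R` modulo
`𝔪_𝒪 R + 𝔪_R²` and no system with fewer elements exists, then an `𝒪`-linear combination of the
`x i` lying in `𝔪_𝒪 R + 𝔪_R²` has all its coefficients in `𝔪_𝒪`. -/
theorem coeff_mem_of_min {d : ℕ} (hmin : ∀ d' < d, ¬ GenProp 𝒪 R d')
    (x : Fin d → R) (hx : ∀ i, x i ∈ maximalIdeal R)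
    (hgen : maximalIdeal R ≤ Ideal.map (algebraMap 𝒪 R) (maximalIdeal 𝒪) ⊔
      Ideal.span (Set.range x) ⊔ maximalIdeal R ^ 2)
    (a : Fin d → 𝒪)
    (ha : ∑ i, algebraMap 𝒪 R (a i) * x i ∈
      Ideal.map (algebraMap 𝒪 R) (maximalIdeal 𝒪) ⊔ maximalIdeal R ^ 2)
    (j : Fin d) : a j ∈ maximalIdeal 𝒪 := by
  by_contra hj
  have hu : IsUnit (a j) := by
    rw [mem_maximalIdeal, mem_nonunits_iff, not_not] at hj
    exact hj
  obtain ⟨n, rfl⟩ : ∃ n, d = n + 1 := ⟨d - 1, by have := j.pos; omega⟩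
  apply hmin n (Nat.lt_succ_self n)
  refine ⟨x ∘ j.succAbove, fun i => hx _, ?_⟩
  set K : Ideal R := Ideal.map (algebraMap 𝒪 R) (maximalIdeal 𝒪) ⊔
      Ideal.span (Set.range (x ∘ j.succAbove)) ⊔ maximalIdeal R ^ 2 with hK
  have hspan : ∀ z, x (j.succAbove z) ∈ K := fun z =>
    (le_sup_of_le_left le_sup_right : Ideal.span (Set.range (x ∘ j.succAbove)) ≤ K)
      (Ideal.subset_span ⟨z, rfl⟩)
  have hJK : Ideal.map (algebraMap 𝒪 R) (maximalIdeal 𝒪) ⊔ maximalIdeal R ^ 2 ≤ K :=
    sup_le (le_sup_of_le_left le_sup_left) le_sup_right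
  have hxK : ∀ i, x i ∈ K := by
    intro i
    by_cases hij : i = j
    · subst hij
      have hsum := Fin.sum_univ_succAbove (fun i => algebraMap 𝒪 R (a i) * x i) i
      have h1 : algebraMap 𝒪 R (a i) * x i ∈ K := by
        have h2 : algebraMap 𝒪 R (a i) * x i = (∑ i, algebraMap 𝒪 R (a i) * x i) -
            ∑ z, algebraMap 𝒪 R (a (i.succAbove z)) * x (i.succAbove z) := by
          rw [hsum]; ring
        rw [h2]
        refine K.sub_mem (hJK ha) ?_
        exact K.sum_mem fun z _ => K.mul_mem_left _ (hspan z)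
      have hu' : IsUnit (algebraMap 𝒪 R (a i)) := hu.map _
      exact (Ideal.unit_mul_mem_iff_mem K hu').1 h1
    · obtain ⟨z, hz⟩ := Fin.exists_succAbove_eq hij
      rw [← hz]
      exact hspan z
  refine hgen.trans (sup_le (sup_le ?_ ?_) ?_)
  · exact le_sup_of_le_left le_sup_left
  · rw [Ideal.span_le]
    rintro _ ⟨i, rfl⟩
    exact hxK i
  · exact le_sup_right

end Gen

/-! ### Dual numbers -/

section DualBasic

variable (k : Type*) [Field k]

theorem isArtinianRing_dualNumber : IsArtinianRing (DualNumber k) := by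
  have _ : Module.Finite k (DualNumber k) := inferInstanceAs (Module.Finite k (k × k))
  exact IsArtinianRing.of_finite k (DualNumber k)

theorem isAdicComplete_dualNumber :
    IsAdicComplete (maximalIdeal (DualNumber k)) (DualNumber k) := by
  haveI := isArtinianRing_dualNumber k
  infer_instance

theorem maximalIdeal_dualNumber_sq : maximalIdeal (DualNumber k) ^ 2 = ⊥ := by
  rw [DualNumber.maximalIdeal_eq_span_singleton_eps, Ideal.span_singleton_pow, pow_two,
    DualNumber.eps_mul_eps, Ideal.span_singleton_eq_bot]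

variable {k}

theorem inr_mem_maximalIdeal (c : k) :
    (TrivSqZeroExt.inr c : DualNumber k) ∈ maximalIdeal (DualNumber k) := by
  rw [mem_maximalIdeal, mem_nonunits_iff, TrivSqZeroExt.isUnit_iff_isUnit_fst,
    TrivSqZeroExt.fst_inr]
  exact not_isUnit_zero

theorem mem_maximalIdeal_dualNumber_iff (z : DualNumber k) :
    z ∈ maximalIdeal (DualNumber k) ↔ TrivSqZeroExt.fst z = 0 := by
  rw [mem_maximalIdeal, mem_nonunits_iff, TrivSqZeroExt.isUnit_iff_isUnit_fst, isUnit_iff_ne_zero,
    not_not]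

end DualBasic

/-! ### Construction of tangent vectors -/

section Tangent

variable {𝒪 : Type*} [CommRing 𝒪] [IsLocalRing 𝒪] [IsNoetherianRing 𝒪]
  [IsAdicComplete (maximalIdeal 𝒪) 𝒪]
variable {R : Type*} [CommRing R] [IsLocalRing R] [IsNoetherianRing R]
  [IsAdicComplete (maximalIdeal R) R] [Algebra 𝒪 R]
variable [Algebra 𝒪 (DualNumber (ResidueField 𝒪))]

/-- **Tangent vectors from a minimal system of generators.**  -/
theorem exists_algHom_dualNumber_of_min
    (hloc : IsLocalHom (algebraMap 𝒪 R))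
    (hres : Function.Surjective (IsLocalRing.residue R ∘ algebraMap 𝒪 R))
    (halg : ∀ a : 𝒪, algebraMap 𝒪 (DualNumber (ResidueField 𝒪)) a =
      TrivSqZeroExt.inl (residue 𝒪 a))
    {d : ℕ} (hmin : ∀ d' < d, ¬ GenProp 𝒪 R d')
    (x : Fin d → R) (hx : ∀ i, x i ∈ maximalIdeal R)
    (hgen : maximalIdeal R ≤ Ideal.map (algebraMap 𝒪 R) (maximalIdeal 𝒪) ⊔
      Ideal.span (Set.range x) ⊔ maximalIdeal R ^ 2)
    (c : Fin d → ResidueField 𝒪) :
    ∃ φ : R →ₐ[𝒪] DualNumber (ResidueField 𝒪), ∀ i, φ (x i) = TrivSqZeroExt.inr (c i) := by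
  classical
  obtain ⟨π, hπsurj, hπX⟩ := exists_surjective_algHom_of_generators_mod_sq hloc hres x hx hgen
  haveI := isAdicComplete_dualNumber (ResidueField 𝒪)
  set ψ : MvPowerSeries (Fin d) 𝒪 →ₐ[𝒪] DualNumber (ResidueField 𝒪) :=
    evalCNL (R := 𝒪) (maximalIdeal (DualNumber (ResidueField 𝒪)))
      (fun i => (TrivSqZeroExt.inr (c i) : DualNumber (ResidueField 𝒪)))
      (fun i => inr_mem_maximalIdeal (c i)) with hψ
  have hψX : ∀ i, ψ (MvPowerSeries.X i) = TrivSqZeroExt.inr (c i) := fun i =>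
    evalCNL_X _ _ _ i
  have hker : RingHom.ker π.toRingHom ≤ RingHom.ker ψ.toRingHom := by
    intro f hf
    have hf0 : π f = 0 := hf
    have hπ2 := map_sub_linear_mem_sq π (maximalIdeal R) (fun i => by rw [hπX i]; exact hx i) f
    have hψ2 := map_sub_linear_mem_sq ψ (maximalIdeal (DualNumber (ResidueField 𝒪)))
      (fun i => by rw [hψX i]; exact inr_mem_maximalIdeal (c i)) f
    rw [maximalIdeal_dualNumber_sq, Ideal.mem_bot, sub_eq_zero] at hψ2
    rw [hf0, zero_sub, Ideal.neg_mem_iff] at hπ2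
    simp only [hπX] at hπ2
    simp only [hψX] at hψ2
    -- the constant coefficient lies in `𝔪_𝒪`
    have hsq_le : maximalIdeal R ^ 2 ≤ maximalIdeal R := Ideal.pow_le_self two_ne_zero
    have hsum_mem : ∑ i, algebraMap 𝒪 R (MvPowerSeries.coeff (Finsupp.single i 1) f) * x i ∈
        maximalIdeal R :=
      Ideal.sum_mem _ fun i _ => Ideal.mul_mem_left _ _ (hx i)
    have h0 : MvPowerSeries.coeff 0 f ∈ maximalIdeal 𝒪 := by
      by_contra hcon
      rw [mem_maximalIdeal, mem_nonunits_iff, not_not] at hcon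
      have hu : IsUnit (algebraMap 𝒪 R (MvPowerSeries.coeff 0 f)) := hcon.map _
      have hm : algebraMap 𝒪 R (MvPowerSeries.coeff 0 f) ∈ maximalIdeal R := by
        have := Ideal.sub_mem _ (hsq_le hπ2) hsum_mem
        rwa [add_sub_cancel_right] at this
      exact (mem_maximalIdeal _).1 hm hu
    -- the linear combination lies in `𝔪_𝒪 R + 𝔪_R²`
    have hlin : ∑ i, algebraMap 𝒪 R (MvPowerSeries.coeff (Finsupp.single i 1) f) * x i ∈
        Ideal.map (algebraMap 𝒪 R) (maximalIdeal 𝒪) ⊔ maximalIdeal R ^ 2 := by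
      have h1 : algebraMap 𝒪 R (MvPowerSeries.coeff 0 f) ∈
          Ideal.map (algebraMap 𝒪 R) (maximalIdeal 𝒪) ⊔ maximalIdeal R ^ 2 :=
        Ideal.mem_sup_left (Ideal.mem_map_of_mem _ h0)
      have h2 := Ideal.sub_mem _ (Ideal.mem_sup_right hπ2 :
        _ ∈ Ideal.map (algebraMap 𝒪 R) (maximalIdeal 𝒪) ⊔ maximalIdeal R ^ 2) h1
      rwa [add_sub_cancel_left] at h2
    have hcoef := coeff_mem_of_min hmin x hx hgen _ hlin
    -- conclusion
    show ψ f = 0
    rw [hψ2, halg, (residue_eq_zero_iff _).2 h0, TrivSqZeroExt.inl_zero, zero_add]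
    refine Finset.sum_eq_zero fun i _ => ?_
    rw [halg, (residue_eq_zero_iff _).2 (hcoef i), TrivSqZeroExt.inl_zero, zero_mul]
  refine ⟨AlgHom.liftOfSurjective π hπsurj ψ hker, fun i => ?_⟩
  rw [← hπX i, AlgHom.liftOfSurjective_apply, hψX]

/-- **T1, injective-family form.** If every injective family of `𝒪`-algebra maps `R → k[ε]`
indexed by `k ^ d` has `d ≤ r`, then `R` is a quotient of `𝒪⟦X₁, …, X_r⟧`. -/
theorem exists_surjective_of_forall_injective_le
    (hloc : IsLocalHom (algebraMap 𝒪 R))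
    (hres : Function.Surjective (IsLocalRing.residue R ∘ algebraMap 𝒪 R))
    (halg : ∀ a : 𝒪, algebraMap 𝒪 (DualNumber (ResidueField 𝒪)) a =
      TrivSqZeroExt.inl (residue 𝒪 a))
    (r : ℕ)
    (h : ∀ d : ℕ, ∀ F : (Fin d → ResidueField 𝒪) → (R →ₐ[𝒪] DualNumber (ResidueField 𝒪)),
      Function.Injective F → d ≤ r) :
    ∃ γ : MvPowerSeries (Fin r) 𝒪 →ₐ[𝒪] R, Function.Surjective γ := by
  classical
  have hex := exists_genProp (𝒪 := 𝒪) (R := R)
  have hP : GenProp 𝒪 R (Nat.find hex) := Nat.find_spec hex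
  have hmin : ∀ d' < Nat.find hex, ¬ GenProp 𝒪 R d' := fun d' hd' => Nat.find_min hex hd'
  obtain ⟨x, hx, hgen⟩ := hP
  have hφ := fun c => exists_algHom_dualNumber_of_min hloc hres halg hmin x hx hgen c
  choose F hF using hφ
  have hinj : Function.Injective F := by
    intro c c' hcc'
    funext i
    have := hF c i
    rw [hcc', hF c' i] at this
    exact (TrivSqZeroExt.inr_injective this).symm
  have hdr : Nat.find hex ≤ r := h _ F hinj
  obtain ⟨x', hx', hgen'⟩ := GenProp.mono hdr ⟨x, hx, hgen⟩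
  obtain ⟨γ, hγ, -⟩ := exists_surjective_algHom_of_generators_mod_sq hloc hres x' hx' hgen'
  exact ⟨γ, hγ⟩

/-- **T1, counting form.** If the `𝒪`-algebra maps `R → k[ε]` inject into a finite set with at
most `|k| ^ r` elements, then `R` is a quotient of `𝒪⟦X₁, …, X_r⟧`. -/
theorem exists_surjective_of_card_le [Finite (ResidueField 𝒪)]
    (hloc : IsLocalHom (algebraMap 𝒪 R))
    (hres : Function.Surjective (IsLocalRing.residue R ∘ algebraMap 𝒪 R))
    (halg : ∀ a : 𝒪, algebraMap 𝒪 (DualNumber (ResidueField 𝒪)) a =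
      TrivSqZeroExt.inl (residue 𝒪 a))
    (r : ℕ) {ι : Type*} [Finite ι]
    (G : (R →ₐ[𝒪] DualNumber (ResidueField 𝒪)) → ι) (hG : Function.Injective G)
    (hι : Nat.card ι ≤ Nat.card (ResidueField 𝒪) ^ r) :
    ∃ γ : MvPowerSeries (Fin r) 𝒪 →ₐ[𝒪] R, Function.Surjective γ := by
  apply exists_surjective_of_forall_injective_le hloc hres halg r
  intro d F hF
  have h1 : Nat.card (Fin d → ResidueField 𝒪) ≤ Nat.card ι :=
    Nat.card_le_card_of_injective (G ∘ F) (hG.comp hF)
  rw [Nat.card_fun, Nat.card_fin] at h1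
  have h2 : 1 < Nat.card (ResidueField 𝒪) := Finite.one_lt_card
  exact (Nat.pow_le_pow_iff_right h2).1 (h1.trans hι)

/-- **T1, dimension form.** If the `𝒪`-algebra maps `R → k[ε]` inject into a `k`-vector space
of dimension at most `r`, then `R` is a quotient of `𝒪⟦X₁, …, X_r⟧`. -/
theorem exists_surjective_of_finrank_le [Finite (ResidueField 𝒪)]
    (hloc : IsLocalHom (algebraMap 𝒪 R))
    (hres : Function.Surjective (IsLocalRing.residue R ∘ algebraMap 𝒪 R))
    (halg : ∀ a : 𝒪, algebraMap 𝒪 (DualNumber (ResidueField 𝒪)) a =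
      TrivSqZeroExt.inl (residue 𝒪 a))
    (r : ℕ) {V : Type*} [AddCommGroup V] [Module (ResidueField 𝒪) V]
    [Module.Finite (ResidueField 𝒪) V]
    (G : (R →ₐ[𝒪] DualNumber (ResidueField 𝒪)) → V) (hG : Function.Injective G)
    (hV : Module.finrank (ResidueField 𝒪) V ≤ r) :
    ∃ γ : MvPowerSeries (Fin r) 𝒪 →ₐ[𝒪] R, Function.Surjective γ := by
  haveI : Finite V := Module.finite_of_finite (ResidueField 𝒪)
  refine exists_surjective_of_card_le hloc hres halg r G hG ?_
  rw [Module.natCard_eq_pow_finrank (K := ResidueField 𝒪) (V := V)]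
  exact Nat.pow_le_pow_right Nat.card_pos hV

end Tangent

/-! ### Algebra maps between local algebras with the same residue field are local -/

section Local

variable {𝒪 : Type*} [CommRing 𝒪]
variable {R : Type*} [CommRing R] [IsLocalRing R] [Algebra 𝒪 R]
variable {A : Type*} [CommRing A] [IsLocalRing A] [Algebra 𝒪 A]

theorem isLocalHom_of_residue_surjective
    (hresA : Function.Surjective (IsLocalRing.residue A ∘ algebraMap 𝒪 A))
    (φ : R →ₐ[𝒪] A) : IsLocalHom (φ : R →+* A) := by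
  refine ⟨fun x hu => ?_⟩
  by_contra hx
  have hu' : IsUnit (φ x) := hu
  obtain ⟨a, ha⟩ := hresA ((residue A (φ x))⁻¹)
  have hy : IsUnit (1 - algebraMap 𝒪 R a * x) := by
    have hm : algebraMap 𝒪 R a * x ∈ maximalIdeal R :=
      Ideal.mul_mem_left _ _ ((mem_maximalIdeal x).2 hx)
    by_contra hcon
    have h1 : (1 : R) - algebraMap 𝒪 R a * x ∈ maximalIdeal R := (mem_maximalIdeal _).2 hcon
    have h2 := Ideal.add_mem _ h1 hm
    rw [sub_add_cancel] at h2
    exact (mem_maximalIdeal (1 : R)).1 h2 isUnit_one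
  have hφy : IsUnit (φ (1 - algebraMap 𝒪 R a * x)) := hy.map φ
  rw [map_sub, map_one, map_mul, AlgHom.commutes] at hφy
  have hres0 : residue A (1 - algebraMap 𝒪 A a * φ x) = 0 := by
    have hne : residue A (φ x) ≠ 0 := by
      intro h0
      exact ((residue_eq_zero_iff _).1 h0) hu'
    rw [map_sub, map_one, map_mul]
    have : residue A (algebraMap 𝒪 A a) = (residue A (φ x))⁻¹ := ha
    rw [this, inv_mul_cancel₀ hne, sub_self]
  exact ((residue_eq_zero_iff _).1 hres0) hφy

end Local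

end

end Fermat.Agent.S56.H596
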