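import Mathlib

/-!
# S56, piece DICT (helper596): `2 × 2` matrices over the dual numbers

A matrix `X` over `k[ε]` is written `X = X₀ + ε X₁` with `X₀ = m0 X`, `X₁ = m1 X` matrices
over `k`.
-/

set_option autoImplicit false
set_option linter.unusedSectionVars false
set_option linter.unusedVariables false

namespace Fermat.Agent.S56.H596

noncomputable section

open TrivSqZeroExt

variable {k : Type*} [Field k]

/-- The constant part of a matrix over the dual numbers. -/
def m0 (X : Matrix (Fin 2) (Fin 2) (DualNumber k)) : Matrix (Fin 2) (Fin 2) k :=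
  X.map TrivSqZeroExt.fst

/-- The `ε`-part of a matrix over the dual numbers. -/
def m1 (X : Matrix (Fin 2) (Fin 2) (DualNumber k)) : Matrix (Fin 2) (Fin 2) k :=
  X.map TrivSqZeroExt.snd

@[simp] theorem m0_apply (X : Matrix (Fin 2) (Fin 2) (DualNumber k)) (i j : Fin 2) :
    m0 X i j = TrivSqZeroExt.fst (X i j) := rfl

@[simp] theorem m1_apply (X : Matrix (Fin 2) (Fin 2) (DualNumber k)) (i j : Fin 2) :
    m1 X i j = TrivSqZeroExt.snd (X i j) := rfl

theorem dualMat_ext {X Y : Matrix (Fin 2) (Fin 2) (DualNumber k)} (h0 : m0 X = m0 Y)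
    (h1 : m1 X = m1 Y) : X = Y := by
  ext i j
  · have := congrFun (congrFun h0 i) j
    simpa using this
  · have := congrFun (congrFun h1 i) j
    simpa using this

theorem m0_mul (X Y : Matrix (Fin 2) (Fin 2) (DualNumber k)) : m0 (X * Y) = m0 X * m0 Y := by
  ext i j
  simp [Matrix.mul_apply, Fin.sum_univ_two]

theorem m1_mul (X Y : Matrix (Fin 2) (Fin 2) (DualNumber k)) :
    m1 (X * Y) = m0 X * m1 Y + m1 X * m0 Y := by
  ext i j
  simp [Matrix.mul_apply, Fin.sum_univ_two]
  ring

@[simp] theorem m0_one : m0 (1 : Matrix (Fin 2) (Fin 2) (DualNumber k)) = 1 := by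
  ext i j
  by_cases h : i = j
  · subst h; simp
  · simp [h]

@[simp] theorem m1_one : m1 (1 : Matrix (Fin 2) (Fin 2) (DualNumber k)) = 0 := by
  ext i j
  by_cases h : i = j
  · subst h; simp
  · simp [h]

/-- The matrix `R + ε B` over the dual numbers. -/
def dmk (R B : Matrix (Fin 2) (Fin 2) k) : Matrix (Fin 2) (Fin 2) (DualNumber k) :=
  Matrix.of fun i j => TrivSqZeroExt.inl (R i j) + TrivSqZeroExt.inr (B i j)

@[simp] theorem m0_dmk (R B : Matrix (Fin 2) (Fin 2) k) : m0 (dmk R B) = R := by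
  ext i j; simp [dmk]

@[simp] theorem m1_dmk (R B : Matrix (Fin 2) (Fin 2) k) : m1 (dmk R B) = B := by
  ext i j; simp [dmk]

theorem dmk_m0_m1 (X : Matrix (Fin 2) (Fin 2) (DualNumber k)) : dmk (m0 X) (m1 X) = X :=
  dualMat_ext (m0_dmk _ _) (m1_dmk _ _)

theorem fst_det (X : Matrix (Fin 2) (Fin 2) (DualNumber k)) :
    TrivSqZeroExt.fst X.det = (m0 X).det := by
  simp [Matrix.det_fin_two]

theorem snd_det (X : Matrix (Fin 2) (Fin 2) (DualNumber k)) :
    TrivSqZeroExt.snd X.det = Matrix.trace (m1 X * (m0 X).adjugate) := by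
  simp [Matrix.det_fin_two, Matrix.trace_fin_two, Matrix.adjugate_fin_two, Matrix.mul_apply,
    Fin.sum_univ_two]
  ring

/-- `dmk R B` as a combination of base-changed matrices. -/
theorem dmk_eq (R B : Matrix (Fin 2) (Fin 2) k) :
    dmk R B = R.map (algebraMap k (DualNumber k)) +
      (DualNumber.eps : DualNumber k) • B.map (algebraMap k (DualNumber k)) := by
  apply dualMat_ext
  · rw [m0_dmk]
    ext i j
    simp [TrivSqZeroExt.algebraMap_eq_inl]
  · rw [m1_dmk]
    ext i j
    simp [TrivSqZeroExt.algebraMap_eq_inl]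

/-- `1 + ε M` is invertible. -/
def dunit (M : Matrix (Fin 2) (Fin 2) k) : (Matrix (Fin 2) (Fin 2) (DualNumber k))ˣ where
  val := dmk 1 M
  inv := dmk 1 (-M)
  val_inv := by
    apply dualMat_ext
    · simp [m0_mul]
    · simp [m1_mul]
  inv_val := by
    apply dualMat_ext
    · simp [m0_mul]
    · simp [m1_mul]

@[simp] theorem coe_dunit (M : Matrix (Fin 2) (Fin 2) k) :
    ((dunit M : (Matrix (Fin 2) (Fin 2) (DualNumber k))ˣ) :
      Matrix (Fin 2) (Fin 2) (DualNumber k)) = dmk 1 M := rfl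

end

end Fermat.Agent.S56.H596
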