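import Fermat.Agent.S56.H716.TBSpec
import Fermat.Agent.S56.H966.CondBC
import Fermat.Agent.S53.Dict
import Fermat.Agent.S56.H596.Cotangent
import Fermat.Agent.S56.H596.DualMat

/-!
# S56, piece DICT (helper596): tangent vectors ↪ tangent cocycles modulo coboundaries

`dictOrd : DictOrdStatement` and `dictFlat : DictFlatStatement` (frozen statements of
`Fermat/Agent/S56/H716/TBSpec.lean`).

Route.  Fix a matrix form `rb` of `ρ̄` and a matrix form `rR` of the universal deformation lifting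
`rb`.  For a tangent vector `φ : R → k[ε]` the matrix representation `φ ∘ rR` is
`σ ↦ rb σ + ε B_φ σ`; the cocycle attached to `φ` is `σ ↦ B_φ σ · (rb σ)⁻¹`, transported to
`End_k (ρ̄.V)`.  Coboundary ⟹ conjugate by `1 + ε M` ⟹ equal tangent vectors by the uniqueness
part of the universal property.
-/

set_option autoImplicit false
set_option linter.unusedSectionVars false
set_option linter.unusedVariables false
set_option linter.style.haveILetI false

namespace Fermat.Agent.S56.H596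

noncomputable section

open IsLocalRing TrivSqZeroExt
open scoped TensorProduct
open Fermat.Agent.S56 Fermat.Agent.S56.H716

/-! ### The tangent algebra -/

section TanAlg

variable (𝒪 : Type) [CommRing 𝒪] [IsLocalRing 𝒪]

attribute [local instance] Fermat.Agent.S56.tanAlgebra

theorem tanAlgebra_algebraMap (a : 𝒪) :
    algebraMap 𝒪 (DualNumber (ResidueField 𝒪)) a = TrivSqZeroExt.inl (residue 𝒪 a) := rfl

theorem isLocalHom_tanAlgebra :
    IsLocalHom (algebraMap 𝒪 (DualNumber (ResidueField 𝒪))) := by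
  refine ⟨fun a ha => ?_⟩
  rw [tanAlgebra_algebraMap, TrivSqZeroExt.isUnit_iff_isUnit_fst, TrivSqZeroExt.fst_inl] at ha
  by_contra hna
  have : residue 𝒪 a = 0 := (residue_eq_zero_iff a).2 ((mem_maximalIdeal a).2 hna)
  rw [this] at ha
  exact not_isUnit_zero ha

theorem residue_tanAlgebra_surjective :
    Function.Surjective (IsLocalRing.residue (DualNumber (ResidueField 𝒪)) ∘
      algebraMap 𝒪 (DualNumber (ResidueField 𝒪))) := by
  intro y
  obtain ⟨z, rfl⟩ := residue_surjective y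
  obtain ⟨a, ha⟩ := residue_surjective (TrivSqZeroExt.fst z)
  refine ⟨a, ?_⟩
  rw [Function.comp_apply, tanAlgebra_algebraMap, ha, ← sub_eq_zero, ← map_sub,
    residue_eq_zero_iff, mem_maximalIdeal_dualNumber_iff]
  simp

/-- The residue class of a dual number is the image of its constant part. -/
theorem residue_dualNumber_eq (z : DualNumber (ResidueField 𝒪)) :
    residue (DualNumber (ResidueField 𝒪)) z =
      @ResidueField.map 𝒪 (DualNumber (ResidueField 𝒪)) _ _ _ _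
        (algebraMap 𝒪 (DualNumber (ResidueField 𝒪))) (isLocalHom_tanAlgebra 𝒪)
        (TrivSqZeroExt.fst z) := by
  haveI := isLocalHom_tanAlgebra 𝒪
  obtain ⟨a, ha⟩ := residue_surjective (TrivSqZeroExt.fst z)
  rw [← ha, ResidueField.map_residue, tanAlgebra_algebraMap, ha, ← sub_eq_zero, ← map_sub,
    residue_eq_zero_iff, mem_maximalIdeal_dualNumber_iff]
  simp

variable {𝒪}
variable {R : Type} [CommRing R] [IsLocalRing R] [Algebra 𝒪 R]

theorem isLocalHom_tanHom (φ : TanHom 𝒪 R) :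
    IsLocalHom (φ : R →+* DualNumber (ResidueField 𝒪)) :=
  isLocalHom_of_residue_surjective (residue_tanAlgebra_surjective 𝒪) φ

/-- The constant part of a tangent vector is the canonical projection `R → k`. -/
theorem fst_tanHom_eq (φ : TanHom 𝒪 R) (x : R) (a : 𝒪)
    (hxa : residue R x = residue R (algebraMap 𝒪 R a)) :
    TrivSqZeroExt.fst (φ x) = residue 𝒪 a := by
  have hm : x - algebraMap 𝒪 R a ∈ maximalIdeal R := by
    rw [← residue_eq_zero_iff, map_sub, hxa, sub_self]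
  have hφ := isLocalHom_tanHom φ
  have h1 : φ (x - algebraMap 𝒪 R a) ∈ maximalIdeal (DualNumber (ResidueField 𝒪)) :=
    Fermat.Agent.S56.H966.map_mem_maximalIdeal (φ : R →+* DualNumber (ResidueField 𝒪)) hφ hm
  rw [mem_maximalIdeal_dualNumber_iff, map_sub, AlgHom.commutes, tanAlgebra_algebraMap,
    TrivSqZeroExt.fst_sub, TrivSqZeroExt.fst_inl, sub_eq_zero] at h1
  exact h1

theorem fst_tanHom_eq_of_map (hloc : IsLocalHom (algebraMap 𝒪 R)) (φ : TanHom 𝒪 R) (x : R)
    (c : ResidueField 𝒪)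
    (hxc : residue R x = ResidueField.map (algebraMap 𝒪 R) c) :
    TrivSqZeroExt.fst (φ x) = c := by
  obtain ⟨a, rfl⟩ := residue_surjective c
  rw [ResidueField.map_residue] at hxc
  exact fst_tanHom_eq φ x a hxc

/-- Two tangent vectors have the same constant part. -/
theorem fst_tanHom_congr
    (hres : Function.Surjective (IsLocalRing.residue R ∘ algebraMap 𝒪 R))
    (φ φ' : TanHom 𝒪 R) (x : R) :
    TrivSqZeroExt.fst (φ x) = TrivSqZeroExt.fst (φ' x) := by
  obtain ⟨a, ha⟩ := hres (residue R x)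
  rw [fst_tanHom_eq φ x a ha.symm, fst_tanHom_eq φ' x a ha.symm]

/-- A tangent vector with nonzero `ε`-part is surjective. -/
theorem tanHom_surjective_of_snd_ne_zero (φ : TanHom 𝒪 R) (x : R)
    (hx : TrivSqZeroExt.snd (φ x) ≠ 0) : Function.Surjective φ := by
  intro z
  obtain ⟨as, has⟩ := residue_surjective (TrivSqZeroExt.fst (φ x))
  obtain ⟨au, hau⟩ := residue_surjective (TrivSqZeroExt.fst z)
  obtain ⟨av, hav⟩ := residue_surjective (TrivSqZeroExt.snd z / TrivSqZeroExt.snd (φ x))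
  refine ⟨algebraMap 𝒪 R au + algebraMap 𝒪 R av * (x - algebraMap 𝒪 R as), ?_⟩
  rw [map_add, map_mul, map_sub, AlgHom.commutes, AlgHom.commutes, AlgHom.commutes,
    tanAlgebra_algebraMap, tanAlgebra_algebraMap, tanAlgebra_algebraMap, has, hau, hav]
  ext
  · simp
  · simp
    field_simp

/-- Tangent vectors with vanishing `ε`-part are equal. -/
theorem tanHom_eq_of_snd_eq_zero
    (hres : Function.Surjective (IsLocalRing.residue R ∘ algebraMap 𝒪 R))
    (φ φ' : TanHom 𝒪 R) (h : ∀ x, TrivSqZeroExt.snd (φ x) = 0)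
    (h' : ∀ x, TrivSqZeroExt.snd (φ' x) = 0) : φ = φ' := by
  apply AlgHom.ext
  intro x
  ext
  · exact fst_tanHom_congr hres φ φ' x
  · rw [h x, h' x]

end TanAlg

/-! ### Matrices and endomorphisms -/

section MatEnd

variable {k : Type} [Field k] {V : Type} [AddCommGroup V] [Module k V]

/-- Matrices as endomorphisms of `V`, through a coordinate system `E : V ≃ k²`. -/
def matToEnd (E : V ≃ₗ[k] (Fin 2 → k)) : Matrix (Fin 2) (Fin 2) k ≃+* Module.End k V :=
  (Matrix.toLinAlgEquiv' (R := k) (n := Fin 2)).toRingEquiv.trans E.symm.conjRingEquiv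

theorem matToEnd_apply (E : V ≃ₗ[k] (Fin 2 → k)) (X : Matrix (Fin 2) (Fin 2) k) (v : V) :
    matToEnd E X v = E.symm (X.mulVec (E v)) := by
  simp [matToEnd, LinearEquiv.conjRingEquiv]

theorem conj_matToEnd (E : V ≃ₗ[k] (Fin 2 → k)) (X : Matrix (Fin 2) (Fin 2) k) :
    E.conj (matToEnd E X) = Fermat.Agent.S53.matEnd k X := by
  refine LinearMap.ext fun w => ?_
  rw [LinearEquiv.conj_apply_apply, matToEnd_apply, LinearEquiv.apply_symm_apply,
    LinearEquiv.apply_symm_apply, Fermat.Agent.S53.matEnd_apply]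

theorem trace_matToEnd (E : V ≃ₗ[k] (Fin 2 → k)) (X : Matrix (Fin 2) (Fin 2) k) :
    LinearMap.trace k V (matToEnd E X) = X.trace := by
  have h1 : matToEnd E X = E.symm.conj (Matrix.toLin' X) := by
    refine LinearMap.ext fun v => ?_
    rw [matToEnd_apply, LinearEquiv.conj_apply_apply, LinearEquiv.symm_symm, Matrix.toLin'_apply]
  rw [h1, LinearMap.trace_conj', LinearMap.trace_eq_matrix_trace k (Pi.basisFun k (Fin 2)),
    LinearMap.toMatrix_eq_toMatrix', LinearMap.toMatrix'_toLin']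

end MatEnd

/-! ### The cocycle of a matrix lift to the dual numbers -/

section Coc

variable {k : Type} [Field k]
variable (rb : GQ →* Matrix (Fin 2) (Fin 2) k)
variable (r r' : GQ →* Matrix (Fin 2) (Fin 2) (DualNumber k))

/-- The matrix cocycle `σ ↦ B(σ) · rb(σ)⁻¹` of `r = rb + ε B`. -/
def cocMat (σ : GQ) : Matrix (Fin 2) (Fin 2) k := m1 (r σ) * rb σ⁻¹

variable {rb r r'}

theorem rb_mul_inv (σ : GQ) : rb σ * rb σ⁻¹ = 1 := by
  rw [← map_mul, mul_inv_cancel, map_one]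

theorem rb_inv_mul (σ : GQ) : rb σ⁻¹ * rb σ = 1 := by
  rw [← map_mul, inv_mul_cancel, map_one]

theorem cocMat_mul_rb (σ : GQ) : cocMat rb r σ * rb σ = m1 (r σ) := by
  rw [cocMat, mul_assoc, rb_inv_mul, mul_one]

theorem cocMat_mul (h0 : ∀ σ, m0 (r σ) = rb σ) (σ τ : GQ) :
    cocMat rb r (σ * τ) = cocMat rb r σ + rb σ * cocMat rb r τ * rb σ⁻¹ := by
  unfold cocMat
  rw [map_mul r, m1_mul, h0 σ, h0 τ, mul_inv_rev, map_mul rb, add_mul]
  have h1 : m1 (r σ) * rb τ * (rb τ⁻¹ * rb σ⁻¹) = m1 (r σ) * rb σ⁻¹ := by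
    rw [mul_assoc, ← mul_assoc (rb τ), rb_mul_inv, one_mul]
  rw [h1, add_comm]
  congr 1
  simp only [mul_assoc]

theorem det_rb_ne_zero (σ : GQ) : (rb σ).det ≠ 0 := by
  intro h
  have := congrArg Matrix.det (rb_mul_inv (rb := rb) σ)
  rw [Matrix.det_mul, h, zero_mul, Matrix.det_one] at this
  exact zero_ne_one this

theorem trace_cocMat (h0 : ∀ σ, m0 (r σ) = rb σ) (σ : GQ)
    (hdet : TrivSqZeroExt.snd (r σ).det = 0) : (cocMat rb r σ).trace = 0 := by
  have h1 := snd_det (r σ)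
  rw [hdet, h0] at h1
  have hadj : (rb σ).adjugate = (rb σ).det • rb σ⁻¹ := by
    have := Matrix.adjugate_mul (rb σ)
    calc (rb σ).adjugate = (rb σ).adjugate * (rb σ * rb σ⁻¹) := by rw [rb_mul_inv, mul_one]
      _ = ((rb σ).adjugate * rb σ) * rb σ⁻¹ := by rw [mul_assoc]
      _ = _ := by rw [this, Matrix.smul_mul, one_mul]
  rw [hadj, Matrix.mul_smul, Matrix.trace_smul, smul_eq_mul] at h1
  rcases mul_eq_zero.1 h1.symm with h | h
  · exact absurd h (det_rb_ne_zero σ)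
  · exact h

theorem cocMat_eq_zero_of_m1 (σ : GQ) (h : m1 (r σ) = 0) : cocMat rb r σ = 0 := by
  rw [cocMat, h, zero_mul]

/-- **Coboundary ⟹ conjugate.** -/
theorem dmk_mul_eq_of_coboundary (h0 : ∀ σ, m0 (r σ) = rb σ) (h0' : ∀ σ, m0 (r' σ) = rb σ)
    (M : Matrix (Fin 2) (Fin 2) k)
    (hM : ∀ σ, cocMat rb r σ - cocMat rb r' σ = rb σ * M * rb σ⁻¹ - M) (σ : GQ) :
    dmk 1 M * r σ = r' σ * dmk 1 M := by
  apply dualMat_ext
  · rw [m0_mul, m0_mul, m0_dmk, h0, h0', one_mul, mul_one]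
  · rw [m1_mul, m1_mul, m0_dmk, m1_dmk, h0, h0', one_mul, mul_one]
    have h1 := congrArg (· * rb σ) (hM σ)
    simp only [sub_mul, cocMat_mul_rb, mul_assoc, rb_inv_mul, mul_one] at h1
    rw [sub_eq_sub_iff_add_eq_add] at h1
    rw [h1, add_comm]

end Coc

/-! ### The tangent cocycle with values in `End ρ̄.V` -/

section EndCoc

variable {k : Type} [Field k] (ρbar : ResidualGaloisRep k)
variable {rb : GQ →* Matrix (Fin 2) (Fin 2) k}
variable (E : ρbar.V ≃ₗ[k] (Fin 2 → k))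
variable (r r' : GQ →* Matrix (Fin 2) (Fin 2) (DualNumber k))

/-- The cocycle of `r = rb + ε B` with values in `End ρ̄.V`. -/
def coc (rb : GQ →* Matrix (Fin 2) (Fin 2) k) (σ : GQ) : Module.End k ρbar.V :=
  matToEnd E (cocMat rb r σ)

variable {ρbar} {r r'} {E}

theorem rho_eq_matToEnd (hE : ∀ σ v, E (ρbar.ρ σ v) = (rb σ).mulVec (E v)) (σ : GQ) :
    ρbar.ρ σ = matToEnd E (rb σ) := by
  refine LinearMap.ext fun v => ?_
  rw [matToEnd_apply, ← hE σ v, LinearEquiv.symm_apply_apply]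

theorem coc_mul_rho (hE : ∀ σ v, E (ρbar.ρ σ v) = (rb σ).mulVec (E v)) (σ : GQ) :
    coc ρbar E r rb σ * ρbar.ρ σ = matToEnd E (m1 (r σ)) := by
  rw [coc, rho_eq_matToEnd hE, ← map_mul, cocMat_mul_rb]

theorem eq_one_of_level (hcont : Fermat.Agent.S53.MatCont r) :
    ∃ L : IntermediateField ℚ Qb, FiniteDimensional ℚ L ∧
      ∀ τ : GQ, (∀ x ∈ L, τ x = x) → r τ = 1 := by
  obtain ⟨L, hL, h⟩ := hcont 2
  refine ⟨L, hL, fun τ hτ => ?_⟩
  ext i j : 1
  have := h τ hτ i j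
  rw [maximalIdeal_dualNumber_sq, Ideal.mem_bot, Matrix.sub_apply, sub_eq_zero] at this
  exact this

theorem isAdCocycle_coc (hE : ∀ σ v, E (ρbar.ρ σ v) = (rb σ).mulVec (E v))
    (h0 : ∀ σ, m0 (r σ) = rb σ)
    (hdet : ∀ σ, TrivSqZeroExt.snd (r σ).det = 0) (hcont : Fermat.Agent.S53.MatCont r) :
    IsAdCocycle ρbar (coc ρbar E r rb) := by
  refine ⟨fun σ => ?_, fun σ τ => ?_, ?_⟩
  · rw [coc, trace_matToEnd]
    exact trace_cocMat h0 σ (hdet σ)
  · rw [coc, cocMat_mul h0, map_add, map_mul, map_mul, ← rho_eq_matToEnd hE,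
      ← rho_eq_matToEnd hE]
    rfl
  · obtain ⟨L, hL, h⟩ := eq_one_of_level hcont
    refine ⟨L, hL, fun σ τ hτ => ?_⟩
    have h1 : cocMat rb r τ = 0 := cocMat_eq_zero_of_m1 τ (by rw [h τ hτ, m1_one])
    rw [coc, cocMat_mul h0, h1, mul_zero, zero_mul, add_zero]
    rfl

theorem baseChange_conj {V W : Type} [AddCommGroup V] [Module k V] [AddCommGroup W] [Module k W]
    (F : V ≃ₗ[k] W) (f : Module.End k V) (y : DualNumber k ⊗[k] V) :
    (LinearEquiv.baseChange k (DualNumber k) V W F) (f.baseChange (DualNumber k) y) =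
      ((F.conj f).baseChange (DualNumber k)) (LinearEquiv.baseChange k (DualNumber k) V W F y) := by
  induction y using TensorProduct.induction_on with
  | zero => simp only [map_zero]
  | tmul d v =>
    rw [LinearMap.baseChange_tmul, LinearEquiv.baseChange_tmul, LinearEquiv.baseChange_tmul,
      LinearMap.baseChange_tmul, LinearEquiv.conj_apply_apply, LinearEquiv.symm_apply_apply]
  | add x y hx hy => simp only [map_add, hx, hy]

variable (E) in
/-- The coordinate system `k[ε] ⊗ ρ̄.V ≃ k[ε]²`. -/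
def liftCoord : (DualNumber k ⊗[k] ρbar.V) ≃ₗ[DualNumber k] (Fin 2 → DualNumber k) :=
  (LinearEquiv.baseChange k (DualNumber k) ρbar.V (Fin 2 → k) E).trans
    (TensorProduct.piScalarRight k (DualNumber k) (DualNumber k) (Fin 2))

theorem liftCoord_liftEnd (hE : ∀ σ v, E (ρbar.ρ σ v) = (rb σ).mulVec (E v))
    (h0 : ∀ σ, m0 (r σ) = rb σ) (σ : GQ)
    (y : DualNumber k ⊗[k] ρbar.V) :
    liftCoord E (liftEnd ρbar (coc ρbar E r rb) σ y) = (r σ).mulVec (liftCoord E y) := by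
  have hr : r σ = (rb σ).map (algebraMap k (DualNumber k)) +
      (DualNumber.eps : DualNumber k) • (m1 (r σ)).map (algebraMap k (DualNumber k)) := by
    rw [← dmk_eq, ← h0 σ, dmk_m0_m1]
  rw [liftEnd, coc_mul_rho hE, rho_eq_matToEnd hE σ, LinearMap.add_apply, LinearMap.smul_apply,
    liftCoord, LinearEquiv.trans_apply, LinearEquiv.trans_apply, map_add, map_smul,
    baseChange_conj, baseChange_conj, conj_matToEnd, conj_matToEnd, map_add, map_smul,
    Fermat.Agent.S53.piScalarRight_baseChange, Fermat.Agent.S53.piScalarRight_baseChange]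
  conv_rhs => rw [hr]
  rw [Matrix.add_mulVec, Matrix.smul_mulVec]

theorem isLiftOf_coc (hE : ∀ σ v, E (ρbar.ρ σ v) = (rb σ).mulVec (E v))
    (h0 : ∀ σ, m0 (r σ) = rb σ) (hcont : Fermat.Agent.S53.MatCont r)
    (ρ' : GaloisRepAdic (DualNumber k))
    (F : ρ'.V ≃ₗ[DualNumber k] (Fin 2 → DualNumber k))
    (hF : ∀ σ v, F (ρ'.ρ σ v) = (r σ).mulVec (F v)) :
    IsLiftOf ρbar (coc ρbar E r rb) ρ' := by
  refine ⟨F.trans (liftCoord E).symm, fun σ v => ?_⟩
  rw [LinearEquiv.trans_apply, LinearEquiv.trans_apply, hF]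
  apply (liftCoord E).injective
  rw [LinearEquiv.apply_symm_apply, liftCoord_liftEnd hE h0, LinearEquiv.apply_symm_apply]

end EndCoc

/-! ### Determinants and the cyclotomic character -/

section Det

variable {k : Type} [Field k]

theorem exists_cycExp (p : ℕ) (hp : p.Prime) (σ : GQ) :
    ∃ a : ℕ, ∀ μ : Qb, μ ^ p ^ 1 = 1 → σ μ = μ ^ a := by
  haveI : NeZero p := ⟨hp.ne_zero⟩
  obtain ⟨ζ, hζ⟩ := HasEnoughRootsOfUnity.exists_primitiveRoot Qb p
  have h1 : (σ ζ) ^ p = 1 := by rw [← map_pow, hζ.pow_eq_one, map_one]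
  obtain ⟨a, -, ha⟩ := hζ.eq_pow_of_pow_eq_one h1
  refine ⟨a, fun μ hμ => ?_⟩
  rw [pow_one] at hμ
  obtain ⟨i, -, rfl⟩ := hζ.eq_pow_of_pow_eq_one hμ
  rw [map_pow, ← ha, ← pow_mul, ← pow_mul, mul_comm]

theorem det_eq_of_coord {A : Type} [CommRing A] {V : Type} [AddCommGroup V] [Module A V]
    (F : V ≃ₗ[A] (Fin 2 → A)) (f : Module.End A V) (X : Matrix (Fin 2) (Fin 2) A)
    (hF : ∀ v, F (f v) = X.mulVec (F v)) : LinearMap.det f = X.det := by
  have h1 : f = F.symm.conj (Matrix.toLin' X) := by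
    refine LinearMap.ext fun v => ?_
    rw [LinearEquiv.conj_apply_apply, LinearEquiv.symm_symm, Matrix.toLin'_apply, ← hF,
      LinearEquiv.symm_apply_apply]
  rw [h1, LinearEquiv.conj_apply, LinearMap.comp_assoc, LinearMap.det_conj,
    LinearMap.det_toLin']

theorem snd_det_eq_zero (p : ℕ) (hp : p.Prime) (ρ' : GaloisRepAdic (DualNumber k))
    (hdet : ρ'.DetIsCyclotomic p)
    (r : GQ →* Matrix (Fin 2) (Fin 2) (DualNumber k))
    (F : ρ'.V ≃ₗ[DualNumber k] (Fin 2 → DualNumber k))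
    (hF : ∀ σ v, F (ρ'.ρ σ v) = (r σ).mulVec (F v)) (σ : GQ) :
    TrivSqZeroExt.snd (r σ).det = 0 := by
  obtain ⟨a, ha⟩ := exists_cycExp p hp σ
  have h1 := hdet.2 1 σ a ha
  have hp0 : ((p ^ 1 : ℕ) : DualNumber k) = 0 := by
    have h2 := (mem_maximalIdeal_dualNumber_iff _).1 hdet.1
    rw [pow_one]
    ext
    · exact h2
    · simp
  rw [hp0, Ideal.span_singleton_eq_bot.2 rfl, Ideal.mem_bot, sub_eq_zero,
    det_eq_of_coord F (ρ'.ρ σ) (r σ) (hF σ)] at h1
  rw [h1]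
  simp

end Det

/-! ### The dictionary -/

section Assembly

attribute [local instance] Fermat.Agent.S56.tanAlgebra

variable (𝒪 : Type) [CommRing 𝒪] [IsDomain 𝒪] [IsDiscreteValuationRing 𝒪]
  [IsAdicComplete (maximalIdeal 𝒪) 𝒪]
  (ρbar : ResidualGaloisRep (ResidueField 𝒪))

/-- **DICT, general form.**  For a deformation condition `𝒟` which forces the determinant to be
cyclotomic and is preserved by base change along surjective tangent vectors. -/
theorem dict_of (𝒟 : DefCond 𝒪) (p : ℕ) (hp : p.Prime)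
    (hdet : ∀ ρ' : GaloisRepAdic (DualNumber (ResidueField 𝒪)), 𝒟 ρ' → ρ'.DetIsCyclotomic p)
    (hbc : ∀ (DQ : GaloisRep.DeformationRingData 𝒪 ρbar 𝒟) (φ : TanHom 𝒪 DQ.R)
      (hφ : IsLocalHom (φ : DQ.R →+* DualNumber (ResidueField 𝒪))), Function.Surjective φ →
      𝒟 (DQ.ρ.baseChangeAlong (φ : DQ.R →+* DualNumber (ResidueField 𝒪)) hφ)) :
    Dict 𝒪 ρbar 𝒟 := by
  intro DQ
  classical
  haveI hlocD := isLocalHom_tanAlgebra 𝒪
  obtain ⟨rb, hrb, ⟨e⟩⟩ := Fermat.Agent.S53.exists_toRes ρbar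
  obtain ⟨rR, hrR, hlift, ⟨eR⟩⟩ := Fermat.Agent.S53.exists_lift_of_residual_isEquiv ρbar rb hrb
    ⟨e⟩ DQ.ρ DQ.residual_isEquiv
  let E : ρbar.V ≃ₗ[ResidueField 𝒪] (Fin 2 → ResidueField 𝒪) := e.toLinearEquiv
  have hE : ∀ σ v, E (ρbar.ρ σ v) = (rb σ).mulVec (E v) := fun σ v => e.map_apply σ v
  -- the matrix representation attached to a tangent vector
  let rφ : TanHom 𝒪 DQ.R → (GQ →* Matrix (Fin 2) (Fin 2) (DualNumber (ResidueField 𝒪))) :=
    fun φ => Fermat.Agent.S53.mapRep (φ : DQ.R →+* DualNumber (ResidueField 𝒪)) rR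
  have hcont : ∀ φ, Fermat.Agent.S53.MatCont (rφ φ) := fun φ => hrR.map _ (isLocalHom_tanHom φ)
  have h0 : ∀ φ σ, m0 (rφ φ σ) = rb σ := by
    intro φ σ
    ext i j
    have h1 := congrFun (congrFun (hlift σ) i) j
    simp only [Matrix.map_apply] at h1
    exact fst_tanHom_eq_of_map DQ.instIsLocalHom φ (rR σ i j) (rb σ i j) h1
  have hequiv : ∀ φ : TanHom 𝒪 DQ.R, Nonempty (GaloisRepAdic.Equiv
      (DQ.ρ.baseChangeAlong (φ : DQ.R →+* DualNumber (ResidueField 𝒪)) (isLocalHom_tanHom φ))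
      (Fermat.Agent.S53.toAdic (rφ φ) (hcont φ))) := by
    intro φ
    obtain ⟨e2⟩ := Fermat.Agent.S53.baseChangeAlong_toAdic
      (φ : DQ.R →+* DualNumber (ResidueField 𝒪)) (isLocalHom_tanHom φ) rR hrR
    exact ⟨(eR.baseChangeAlong (φ : DQ.R →+* DualNumber (ResidueField 𝒪))
      (isLocalHom_tanHom φ)).trans e2⟩
  have hcoord : ∀ φ : TanHom 𝒪 DQ.R, ∃ F :
      (DQ.ρ.baseChangeAlong (φ : DQ.R →+* DualNumber (ResidueField 𝒪))
        (isLocalHom_tanHom φ)).V ≃ₗ[DualNumber (ResidueField 𝒪)]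
        (Fin 2 → DualNumber (ResidueField 𝒪)),
      ∀ σ v, F ((DQ.ρ.baseChangeAlong (φ : DQ.R →+* DualNumber (ResidueField 𝒪))
        (isLocalHom_tanHom φ)).ρ σ v) = (rφ φ σ).mulVec (F v) := by
    intro φ
    obtain ⟨e3⟩ := hequiv φ
    exact ⟨e3.toLinearEquiv, fun σ v => e3.map_apply σ v⟩
  have hliftφ : ∀ φ σ, (rφ φ σ).map (residue (DualNumber (ResidueField 𝒪))) =
      (rb σ).map (ResidueField.map (algebraMap 𝒪 (DualNumber (ResidueField 𝒪)))) := by
    intro φ σ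
    ext i j
    simp only [Matrix.map_apply]
    rw [residue_dualNumber_eq]
    congr 1
    exact congrFun (congrFun (h0 φ σ) i) j
  have hresφ : ∀ φ : TanHom 𝒪 DQ.R,
      (DQ.ρ.baseChangeAlong (φ : DQ.R →+* DualNumber (ResidueField 𝒪))
        (isLocalHom_tanHom φ)).residual.IsEquiv
      (ρbar.baseChangeAlong
        (ResidueField.map (algebraMap 𝒪 (DualNumber (ResidueField 𝒪))))) := by
    intro φ
    obtain ⟨e3⟩ := hequiv φ
    obtain ⟨e4⟩ := Fermat.Agent.S53.residual_isEquiv_of_lift ρbar rb hrb ⟨e⟩ (rφ φ) (hcont φ)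
      (hliftφ φ)
    exact ⟨e3.residual.trans e4⟩
  -- non-surjective tangent vectors have vanishing `ε`-part
  have hsnd : ∀ φ : TanHom 𝒪 DQ.R, ¬ Function.Surjective φ → ∀ x, TrivSqZeroExt.snd (φ x) = 0 := by
    intro φ hφ x
    by_contra hx
    exact hφ (tanHom_surjective_of_snd_ne_zero φ x hx)
  refine ⟨fun φ => coc ρbar E (rφ φ) rb, fun φ => ?_, fun φ φ' hcob => ?_⟩
  · by_cases hs : Function.Surjective φ
    · left
      have h𝒟 := hbc DQ φ (isLocalHom_tanHom φ) hs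
      obtain ⟨F, hF⟩ := hcoord φ
      refine ⟨isAdCocycle_coc hE (h0 φ) ?_ (hcont φ), _, isLiftOf_coc hE (h0 φ) (hcont φ) _ F hF,
        h𝒟⟩
      exact snd_det_eq_zero p hp _ (hdet _ h𝒟) (rφ φ) F hF
    · right
      funext σ
      have hm1 : m1 (rφ φ σ) = 0 := by
        ext i j
        exact hsnd φ hs _
      show matToEnd E (cocMat rb (rφ φ) σ) = 0
      rw [cocMat_eq_zero_of_m1 σ hm1, map_zero]
  · -- injectivity modulo coboundaries
    obtain ⟨m, hm⟩ := hcob
    have hM : ∀ σ, cocMat rb (rφ φ) σ - cocMat rb (rφ φ') σ =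
        rb σ * (matToEnd E).symm m * rb σ⁻¹ - (matToEnd E).symm m := by
      intro σ
      apply (matToEnd E).injective
      rw [map_sub, map_sub, map_mul, map_mul, RingEquiv.apply_symm_apply,
        ← rho_eq_matToEnd hE, ← rho_eq_matToEnd hE]
      exact hm σ
    have hconj : (Fermat.Agent.S53.toAdic (rφ φ) (hcont φ)).IsEquiv
        (Fermat.Agent.S53.toAdic (rφ φ') (hcont φ')) := by
      rw [Fermat.Agent.S53.toAdic_isEquiv_iff]
      exact ⟨dunit ((matToEnd E).symm m), fun σ =>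
        dmk_mul_eq_of_coboundary (h0 φ) (h0 φ') _ hM σ⟩
    obtain ⟨e1⟩ := hequiv φ
    obtain ⟨e2⟩ := hequiv φ'
    obtain ⟨e3⟩ := hconj
    have hφφ' : GaloisRepAdic.Equiv
        (DQ.ρ.baseChangeAlong (φ : DQ.R →+* DualNumber (ResidueField 𝒪)) (isLocalHom_tanHom φ))
        (DQ.ρ.baseChangeAlong (φ' : DQ.R →+* DualNumber (ResidueField 𝒪))
          (isLocalHom_tanHom φ')) := (e1.trans e3).trans e2.symm
    haveI := isAdicComplete_dualNumber (ResidueField 𝒪)
    by_cases hs' : Function.Surjective φ'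
    · have huniv := DQ.universal (DualNumber (ResidueField 𝒪)) (residue_tanAlgebra_surjective 𝒪)
        _ (hbc DQ φ' (isLocalHom_tanHom φ') hs') (hresφ φ')
      exact huniv.unique ⟨isLocalHom_tanHom φ, ⟨hφφ'⟩⟩
        ⟨isLocalHom_tanHom φ', ⟨GaloisRepAdic.Equiv.refl _⟩⟩
    · by_cases hs : Function.Surjective φ
      · have huniv := DQ.universal (DualNumber (ResidueField 𝒪))
          (residue_tanAlgebra_surjective 𝒪) _ (hbc DQ φ (isLocalHom_tanHom φ) hs) (hresφ φ)
        exact huniv.unique ⟨isLocalHom_tanHom φ, ⟨GaloisRepAdic.Equiv.refl _⟩⟩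
          ⟨isLocalHom_tanHom φ', ⟨hφφ'.symm⟩⟩
      · exact tanHom_eq_of_snd_eq_zero DQ.residue_surjective φ φ' (hsnd φ hs) (hsnd φ' hs')

/-- **(DICT-ord)**. -/
theorem dictOrd : DictOrdStatement := by
  intro 𝒪 _ _ _ _ _ p ρbar S Smin hyp Q
  refine dict_of 𝒪 ρbar (ordCond 𝒪 p Smin Q) p hyp.hp (fun ρ' h => h.1.1) ?_
  intro DQ φ hφ _
  exact ⟨Fermat.Agent.S56.H966.strictOrdinaryCondition_baseChangeAlong 𝒪 _ hφ DQ.isOfType.1,
    fun q hq hqp hne => Fermat.Agent.S56.H966.isUnipotentOnInertiaAt_baseChangeAlong _ hφ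
      (DQ.isOfType.2 q hq hqp hne)⟩

/-- **(DICT-flat)**. -/
theorem dictFlat : DictFlatStatement := by
  intro 𝒪 _ _ _ _ _ p ρbar S Smin hyp Q
  refine dict_of 𝒪 ρbar (flatCond 𝒪 p Smin Q) p hyp.hp (fun ρ' h => h.1.1) ?_
  intro DQ φ hφ hs
  exact ⟨Fermat.Agent.S56.H966.flatCondition_baseChangeAlong_of_surjective 𝒪 _ hφ hs
      DQ.isOfType.1,
    fun q hq hqp hne => Fermat.Agent.S56.H966.isUnipotentOnInertiaAt_baseChangeAlong _ hφ
      (DQ.isOfType.2 q hq hqp hne)⟩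

end Assembly

end

end Fermat.Agent.S56.H596
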