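import Fermat.Agent.S55.PT.Cone

/-!
# S56, BRIDGE (helper596): isomorphic coefficients have isomorphic cohomology (PT vocabulary)

For an equivariant linear equivalence `e : A ≃ₗ[k] B` of representations
(`IsEquivariant e.toLinearMap`), explicit linear equivalences

* `h0Equiv`  : `H⁰(A) ≃ H⁰(B)`,
* `h1Equiv`  : `L.H1 A ≃ L.H1 B`,     `h2Equiv` : `L.H2 A ≃ L.H2 B`,
* `sha1Equiv`: `Sha1 hr A ≃ Sha1 hr B`, `sha2Equiv` : `Sha2 hr A ≃ Sha2 hr B`,

with their `finrank` corollaries.  Everything is functoriality of `pushH*`.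
-/

set_option autoImplicit false
set_option linter.unusedSectionVars false
set_option linter.unusedVariables false

noncomputable section

namespace Fermat.Agent.S56.H596

open groupCohomology Fermat.Agent.S55.PT

variable {k : Type} [Field k] {G : Type} [Group G]

section Functoriality

variable {A B C : Rep.{0, 0, 0} k G} (L : LevelSys G)

theorem isEquivariant_id' (A : Rep.{0, 0, 0} k G) :
    IsEquivariant (LinearMap.id : A →ₗ[k] A) := fun _ _ => rfl

theorem isEquivariant_comp' {φ : A →ₗ[k] B} {ψ : B →ₗ[k] C} (hφ : IsEquivariant φ)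
    (hψ : IsEquivariant ψ) : IsEquivariant (ψ ∘ₗ φ) := fun g a => by
  have h1 : φ (A.ρ g a) = B.ρ g (φ a) := hφ g a
  have h2 : ψ (B.ρ g (φ a)) = C.ρ g (ψ (φ a)) := hψ g (φ a)
  show ψ (φ (A.ρ g a)) = C.ρ g (ψ (φ a))
  rw [h1, h2]

theorem isEquivariant_symm (e : A ≃ₗ[k] B) (he : IsEquivariant e.toLinearMap) :
    IsEquivariant e.symm.toLinearMap := fun g b => by
  have h := he g (e.symm b)
  show e.symm (B.ρ g b) = A.ρ g (e.symm b)
  apply e.injective
  rw [e.apply_symm_apply]
  have h' : e (A.ρ g (e.symm b)) = B.ρ g (e (e.symm b)) := h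
  rw [h', e.apply_symm_apply]

theorem pushH1_id' (h : IsEquivariant (LinearMap.id : A →ₗ[k] A)) (x : L.H1 A) :
    pushH1 LinearMap.id h L x = x := by
  obtain ⟨c, rfl⟩ := L.H1π_surjective A x
  rfl

theorem pushH2_id' (h : IsEquivariant (LinearMap.id : A →ₗ[k] A)) (x : L.H2 A) :
    pushH2 LinearMap.id h L x = x := by
  obtain ⟨c, rfl⟩ := L.H2π_surjective A x
  rfl

theorem pushH1_pushH1 {φ : A →ₗ[k] B} {ψ : B →ₗ[k] C} (hφ : IsEquivariant φ)
    (hψ : IsEquivariant ψ) (hψφ : IsEquivariant (ψ ∘ₗ φ)) (x : L.H1 A) :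
    pushH1 ψ hψ L (pushH1 φ hφ L x) = pushH1 (ψ ∘ₗ φ) hψφ L x := by
  obtain ⟨c, rfl⟩ := L.H1π_surjective A x
  rfl

theorem pushH2_pushH2 {φ : A →ₗ[k] B} {ψ : B →ₗ[k] C} (hφ : IsEquivariant φ)
    (hψ : IsEquivariant ψ) (hψφ : IsEquivariant (ψ ∘ₗ φ)) (x : L.H2 A) :
    pushH2 ψ hψ L (pushH2 φ hφ L x) = pushH2 (ψ ∘ₗ φ) hψφ L x := by
  obtain ⟨c, rfl⟩ := L.H2π_surjective A x
  rfl

theorem pushH1_congr {φ ψ : A →ₗ[k] B} (hφ : IsEquivariant φ) (hψ : IsEquivariant ψ)
    (h : φ = ψ) (x : L.H1 A) : pushH1 φ hφ L x = pushH1 ψ hψ L x := by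
  subst h
  rfl

theorem pushH2_congr {φ ψ : A →ₗ[k] B} (hφ : IsEquivariant φ) (hψ : IsEquivariant ψ)
    (h : φ = ψ) (x : L.H2 A) : pushH2 φ hφ L x = pushH2 ψ hψ L x := by
  subst h
  rfl

end Functoriality

section Equivs

variable {A B : Rep.{0, 0, 0} k G} (L : LevelSys G) (e : A ≃ₗ[k] B)
  (he : IsEquivariant e.toLinearMap)

/-- `H⁰(A) ≃ H⁰(B)`. -/
def h0Equiv : ↥(LevelSys.H0 A) ≃ₗ[k] ↥(LevelSys.H0 B) :=
  LinearEquiv.ofLinearMap (pushH0 e.toLinearMap he)
    (pushH0 e.symm.toLinearMap (isEquivariant_symm e he))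
    (by
      ext b
      simp)
    (by
      ext a
      simp)

/-- `H¹(A) ≃ H¹(B)`. -/
def h1Equiv : L.H1 A ≃ₗ[k] L.H1 B :=
  LinearEquiv.ofLinearMap (pushH1 e.toLinearMap he L)
    (pushH1 e.symm.toLinearMap (isEquivariant_symm e he) L)
    (by
      ext x
      have hid : e.toLinearMap ∘ₗ e.symm.toLinearMap = LinearMap.id := by
        ext b
        simp
      show pushH1 e.toLinearMap he L (pushH1 e.symm.toLinearMap _ L x) = x
      rw [pushH1_pushH1 L (isEquivariant_symm e he) he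
        (isEquivariant_comp' (isEquivariant_symm e he) he),
        pushH1_congr L _ (isEquivariant_id' B) hid, pushH1_id'])
    (by
      ext x
      have hid : e.symm.toLinearMap ∘ₗ e.toLinearMap = LinearMap.id := by
        ext b
        simp
      show pushH1 e.symm.toLinearMap _ L (pushH1 e.toLinearMap he L x) = x
      rw [pushH1_pushH1 L he (isEquivariant_symm e he)
        (isEquivariant_comp' he (isEquivariant_symm e he)),
        pushH1_congr L _ (isEquivariant_id' A) hid, pushH1_id'])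

/-- `H²(A) ≃ H²(B)`. -/
def h2Equiv : L.H2 A ≃ₗ[k] L.H2 B :=
  LinearEquiv.ofLinearMap (pushH2 e.toLinearMap he L)
    (pushH2 e.symm.toLinearMap (isEquivariant_symm e he) L)
    (by
      ext x
      have hid : e.toLinearMap ∘ₗ e.symm.toLinearMap = LinearMap.id := by
        ext b
        simp
      show pushH2 e.toLinearMap he L (pushH2 e.symm.toLinearMap _ L x) = x
      rw [pushH2_pushH2 L (isEquivariant_symm e he) he
        (isEquivariant_comp' (isEquivariant_symm e he) he),
        pushH2_congr L _ (isEquivariant_id' B) hid, pushH2_id'])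
    (by
      ext x
      have hid : e.symm.toLinearMap ∘ₗ e.toLinearMap = LinearMap.id := by
        ext b
        simp
      show pushH2 e.symm.toLinearMap _ L (pushH2 e.toLinearMap he L x) = x
      rw [pushH2_pushH2 L he (isEquivariant_symm e he)
        (isEquivariant_comp' he (isEquivariant_symm e he)),
        pushH2_congr L _ (isEquivariant_id' A) hid, pushH2_id'])

@[simp] theorem h1Equiv_apply (x : L.H1 A) : h1Equiv L e he x = pushH1 e.toLinearMap he L x := rfl
@[simp] theorem h2Equiv_apply (x : L.H2 A) : h2Equiv L e he x = pushH2 e.toLinearMap he L x := rfl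
@[simp] theorem h0Equiv_apply (x : ↥(LevelSys.H0 A)) :
    ((h0Equiv e he x : ↥(LevelSys.H0 B)) : B) = e (x : A) := rfl

include he in
theorem finrank_H0_eq : Module.finrank k ↥(LevelSys.H0 A) = Module.finrank k ↥(LevelSys.H0 B) :=
  (h0Equiv e he).finrank_eq

include he in
theorem finrank_H1_eq : Module.finrank k (L.H1 A) = Module.finrank k (L.H1 B) :=
  (h1Equiv L e he).finrank_eq

include he in
theorem finrank_H2_eq : Module.finrank k (L.H2 A) = Module.finrank k (L.H2 B) :=
  (h2Equiv L e he).finrank_eq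

end Equivs

section Sha

variable {ι : Type} [Fintype ι] [DecidableEq ι] {Gv : ι → Type} [∀ v, Group (Gv v)]
variable {L : LevelSys G} {Lv : ∀ v, LevelSys (Gv v)} {r : ∀ v, Gv v →* G}
variable (hr : ∀ v, IsLevelCompatible (r v) L (Lv v))
variable {A B : Rep.{0, 0, 0} k G} (e : A ≃ₗ[k] B) (he : IsEquivariant e.toLinearMap)

/-- `Ш¹(A) ≃ Ш¹(B)`. -/
def sha1Equiv : ↥(Sha1 hr A) ≃ₗ[k] ↥(Sha1 hr B) :=
  LinearEquiv.ofLinearMap (pushSha1 hr e.toLinearMap he)
    (pushSha1 hr e.symm.toLinearMap (isEquivariant_symm e he))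
    (by
      ext x
      simp only [LinearMap.coe_comp, Function.comp_apply, coe_pushSha1, LinearMap.id_coe, id_eq]
      exact (h1Equiv L e he).apply_symm_apply (x : L.H1 B))
    (by
      ext x
      simp only [LinearMap.coe_comp, Function.comp_apply, coe_pushSha1, LinearMap.id_coe, id_eq]
      exact (h1Equiv L e he).symm_apply_apply (x : L.H1 A))

/-- `Ш²(A) ≃ Ш²(B)`. -/
def sha2Equiv : ↥(Sha2 hr A) ≃ₗ[k] ↥(Sha2 hr B) :=
  LinearEquiv.ofLinearMap (pushSha2 hr e.toLinearMap he)
    (pushSha2 hr e.symm.toLinearMap (isEquivariant_symm e he))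
    (by
      ext x
      simp only [LinearMap.coe_comp, Function.comp_apply, coe_pushSha2, LinearMap.id_coe, id_eq]
      exact (h2Equiv L e he).apply_symm_apply (x : L.H2 B))
    (by
      ext x
      simp only [LinearMap.coe_comp, Function.comp_apply, coe_pushSha2, LinearMap.id_coe, id_eq]
      exact (h2Equiv L e he).symm_apply_apply (x : L.H2 A))

include he in
theorem finrank_Sha1_eq : Module.finrank k ↥(Sha1 hr A) = Module.finrank k ↥(Sha1 hr B) :=
  (sha1Equiv hr e he).finrank_eq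

include he in
theorem finrank_Sha2_eq : Module.finrank k ↥(Sha2 hr A) = Module.finrank k ↥(Sha2 hr B) :=
  (sha2Equiv hr e he).finrank_eq

end Sha

end Fermat.Agent.S56.H596

end
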