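import Fermat.Agent.S55.PT.Cone

/-!
# S56, BRIDGE B2 (helper596): cohomology does not see the coefficient field

`X : Rep 𝔽_p G` and `Y : Rep k G` "are the same `G`-module" (`SameMod p X Y`: an additive
equivalence `e : X ≃+ Y` commuting with the actions; e.g. `Y` any `k`-representation, `k ⊇ 𝔽_p`,
and `X = fpOf p Y` its restriction of scalars).  Then, in the `PT` vocabulary of S55:

* `SameMod.h0Equiv`, `h1Equiv`, `h2Equiv` : `H^i(X) ≃+ H^i(Y)` for every level system;
* `SameMod.sha1Equiv`, `sha2Equiv` : `Ш^i(X) ≃+ Ш^i(Y)`;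
* `finrank_H1`, ... : `dim_{𝔽_p} H^i(X) = [k : 𝔽_p] · dim_k H^i(Y)`.
-/

set_option autoImplicit false
set_option linter.unusedSectionVars false
set_option linter.unusedVariables false
set_option linter.style.haveILetI false

noncomputable section

namespace Fermat.Agent.S56.H596

open groupCohomology Fermat.Agent.S55.PT

/-! ### Dimensions over `𝔽_p` and over `k` -/

/-- An additive equivalence between an `𝔽_p`-space `M` and a `k`-space `N` (`k ⊇ 𝔽_p`):
`dim_{𝔽_p} M = [k : 𝔽_p] · dim_k N`. -/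
theorem finrank_eq_mul_of_addEquiv (p : ℕ) [Fact p.Prime] {k : Type} [Field k]
    [Algebra (ZMod p) k] {M N : Type} [AddCommGroup M] [Module (ZMod p) M] [AddCommGroup N]
    [Module k N] (e : M ≃+ N) :
    Module.finrank (ZMod p) M = Module.finrank (ZMod p) k * Module.finrank k N := by
  letI : Module (ZMod p) N := Module.compHom N (algebraMap (ZMod p) k)
  haveI : IsScalarTower (ZMod p) k N :=
    ⟨fun a b n => by
      show (a • b) • n = algebraMap (ZMod p) k a • (b • n)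
      rw [Algebra.smul_def, mul_smul]⟩
  have h1 : Module.finrank (ZMod p) M = Module.finrank (ZMod p) N :=
    LinearEquiv.finrank_eq
      { (e.toAddMonoidHom.toZModLinearMap p) with
        invFun := e.symm
        left_inv := e.left_inv
        right_inv := e.right_inv }
  rw [h1, Module.finrank_mul_finrank]

variable (p : ℕ) [Fact p.Prime] {k : Type} [Field k] {G : Type} [Group G]

/-- `X` (over `𝔽_p`) and `Y` (over `k`) are the same `G`-module. -/
structure SameMod (X : Rep.{0, 0, 0} (ZMod p) G) (Y : Rep.{0, 0, 0} k G) where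
  /-- the identification of the underlying groups -/
  e : X ≃+ Y
  /-- the identification commutes with the actions -/
  comm : ∀ (g : G) (x : X), e (X.ρ g x) = Y.ρ g (e x)

namespace SameMod

variable {p} {X : Rep.{0, 0, 0} (ZMod p) G} {Y : Rep.{0, 0, 0} k G} (E : SameMod p X Y)

theorem comm_symm (g : G) (y : Y) : E.e.symm (Y.ρ g y) = X.ρ g (E.e.symm y) := by
  apply E.e.injective
  rw [E.e.apply_symm_apply, E.comm, E.e.apply_symm_apply]

/-- restriction along a group homomorphism -/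
def res {G' : Type} [Group G'] (r : G' →* G) : SameMod p (Rep.res r X) (Rep.res r Y) where
  e := E.e
  comm g x := E.comm (r g) x

theorem symm_comp_comp {T : Type} (f : T → X) : (E.e.symm ∘ (E.e ∘ f)) = f := by
  funext t
  simp

theorem comp_symm_comp {T : Type} (f : T → Y) : (E.e ∘ (E.e.symm ∘ f)) = f := by
  funext t
  simp

/-! ### cochains -/

variable (L : LevelSys G)

theorem isLC₁_iff (f : G → X) : L.IsLC₁ (E.e ∘ f) ↔ L.IsLC₁ f :=
  ⟨fun h => by simpa [E.symm_comp_comp] using LevelSys.IsLC₁.comp h E.e.symm,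
    fun h => LevelSys.IsLC₁.comp h E.e⟩

theorem isLC₂_iff (f : G × G → X) : L.IsLC₂ (E.e ∘ f) ↔ L.IsLC₂ f :=
  ⟨fun h => by simpa [E.symm_comp_comp] using LevelSys.IsLC₂.comp h E.e.symm,
    fun h => LevelSys.IsLC₂.comp h E.e⟩

theorem mem_cocycles₁_iff (f : G → X) :
    (E.e ∘ f : G → Y) ∈ cocycles₁ Y ↔ f ∈ cocycles₁ X := by
  rw [groupCohomology.mem_cocycles₁_iff, groupCohomology.mem_cocycles₁_iff]
  constructor
  · intro h g g'
    apply E.e.injective
    have := h g g'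
    simp only [Function.comp_apply] at this
    rw [this, map_add, E.comm]
  · intro h g g'
    simp only [Function.comp_apply]
    rw [h g g', map_add, E.comm]

theorem mem_cocycles₂_iff (f : G × G → X) :
    (E.e ∘ f : G × G → Y) ∈ cocycles₂ Y ↔ f ∈ cocycles₂ X := by
  rw [groupCohomology.mem_cocycles₂_iff, groupCohomology.mem_cocycles₂_iff]
  constructor
  · intro h g g' g''
    apply E.e.injective
    have := h g g' g''
    simp only [Function.comp_apply] at this
    rw [map_add, this, map_add, E.comm]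
  · intro h g g' g''
    simp only [Function.comp_apply]
    rw [← map_add, h g g' g'', map_add, E.comm]

theorem mem_Z1_iff (f : G → X) : (E.e ∘ f : G → Y) ∈ L.Z1 Y ↔ f ∈ L.Z1 X :=
  and_congr (E.mem_cocycles₁_iff f) (E.isLC₁_iff L f)

theorem mem_Z2_iff (f : G × G → X) : (E.e ∘ f : G × G → Y) ∈ L.Z2 Y ↔ f ∈ L.Z2 X :=
  and_congr (E.mem_cocycles₂_iff f) (E.isLC₂_iff L f)

theorem d₀₁_comm (m : X) : (d₀₁ Y).hom (E.e m) = E.e ∘ (d₀₁ X).hom m := by
  funext g
  simp only [d₀₁_hom_apply, Function.comp_apply, map_sub, E.comm]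

theorem d₁₂_comm (f : G → X) : (d₁₂ Y).hom (E.e ∘ f) = E.e ∘ (d₁₂ X).hom f := by
  funext ⟨g, h⟩
  simp only [d₁₂_hom_apply, Function.comp_apply, map_add, map_sub, E.comm]

theorem mem_B1_iff (f : G → X) : (E.e ∘ f : G → Y) ∈ LevelSys.B1 Y ↔ f ∈ LevelSys.B1 X := by
  constructor
  · rintro ⟨m, hm⟩
    refine ⟨E.e.symm m, ?_⟩
    have h1 := E.d₀₁_comm (E.e.symm m)
    rw [E.e.apply_symm_apply, hm] at h1
    funext g
    apply E.e.injective
    exact (congrFun h1 g).symm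
  · rintro ⟨m, rfl⟩
    exact ⟨E.e m, E.d₀₁_comm m⟩

theorem mem_B2_iff (f : G × G → X) : (E.e ∘ f : G × G → Y) ∈ L.B2 Y ↔ f ∈ L.B2 X := by
  constructor
  · rintro ⟨x, hx, hxf⟩
    refine ⟨E.e.symm ∘ x, ?_, ?_⟩
    · have := (E.isLC₁_iff L (E.e.symm ∘ x)).1 (by rw [E.comp_symm_comp]; exact hx)
      exact this
    · have h1 := E.d₁₂_comm (E.e.symm ∘ x)
      rw [E.comp_symm_comp, hxf] at h1
      funext g
      apply E.e.injective
      exact (congrFun h1 g).symm
  · rintro ⟨x, hx, rfl⟩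
    exact ⟨E.e ∘ x, (E.isLC₁_iff L x).2 hx, E.d₁₂_comm x⟩

/-! ### `H⁰` -/

/-- `H⁰(X) ≃+ H⁰(Y)`. -/
def h0Equiv : ↥(LevelSys.H0 X) ≃+ ↥(LevelSys.H0 Y) where
  toFun x := ⟨E.e x.1, fun g => by rw [← E.comm, x.2 g]⟩
  invFun y := ⟨E.e.symm y.1, fun g => by rw [← E.comm_symm, y.2 g]⟩
  left_inv x := Subtype.ext (E.e.symm_apply_apply _)
  right_inv y := Subtype.ext (E.e.apply_symm_apply _)
  map_add' x y := Subtype.ext (map_add E.e _ _)

@[simp] theorem coe_h0Equiv (x : ↥(LevelSys.H0 X)) : ((E.h0Equiv x : ↥(LevelSys.H0 Y)) : Y) =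
    E.e x.1 := rfl

/-! ### `H¹` -/

/-- `Z¹(X) ≃+ Z¹(Y)`. -/
def z1Equiv : ↥(L.Z1 X) ≃+ ↥(L.Z1 Y) where
  toFun c := ⟨E.e ∘ c.1, (E.mem_Z1_iff L c.1).2 c.2⟩
  invFun c := ⟨E.e.symm ∘ c.1, (E.mem_Z1_iff L _).1 (by rw [E.comp_symm_comp]; exact c.2)⟩
  left_inv c := Subtype.ext (E.symm_comp_comp _)
  right_inv c := Subtype.ext (E.comp_symm_comp _)
  map_add' a b := Subtype.ext (by
    funext g
    exact map_add E.e _ _)

@[simp] theorem coe_z1Equiv (c : ↥(L.Z1 X)) : ((E.z1Equiv L c : ↥(L.Z1 Y)) : G → Y) =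
    E.e ∘ (c : G → X) := rfl

/-- `Z²(X) ≃+ Z²(Y)`. -/
def z2Equiv : ↥(L.Z2 X) ≃+ ↥(L.Z2 Y) where
  toFun c := ⟨E.e ∘ c.1, (E.mem_Z2_iff L c.1).2 c.2⟩
  invFun c := ⟨E.e.symm ∘ c.1, (E.mem_Z2_iff L _).1 (by rw [E.comp_symm_comp]; exact c.2)⟩
  left_inv c := Subtype.ext (E.symm_comp_comp _)
  right_inv c := Subtype.ext (E.comp_symm_comp _)
  map_add' a b := Subtype.ext (by
    funext g
    exact map_add E.e _ _)

@[simp] theorem coe_z2Equiv (c : ↥(L.Z2 X)) : ((E.z2Equiv L c : ↥(L.Z2 Y)) : G × G → Y) =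
    E.e ∘ (c : G × G → X) := rfl

/-- the comparison map on `H¹` -/
def h1Hom : L.H1 X →+ L.H1 Y :=
  letI : Module (ZMod p) (L.H1 Y) := AddCommGroup.zmodModule (n := p) (G := L.H1 Y) (by
    intro y
    obtain ⟨c, rfl⟩ := L.H1π_surjective Y y
    rw [← map_nsmul]
    have : p • c = (E.z1Equiv L) (p • (E.z1Equiv L).symm c) := by
      rw [map_nsmul, AddEquiv.apply_symm_apply]
    rw [this]
    have h0 : p • (E.z1Equiv L).symm c = 0 := by
      rw [← Nat.cast_smul_eq_nsmul (ZMod p), ZMod.natCast_self, zero_smul]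
    rw [h0, map_zero, map_zero])
  (Submodule.liftQ ((LevelSys.B1 X).comap (L.Z1 X).subtype)
    (((L.H1π Y).toAddMonoidHom.comp (E.z1Equiv L).toAddMonoidHom).toZModLinearMap p)
    (by
      intro c hc
      rw [Submodule.mem_comap, Submodule.subtype_apply] at hc
      rw [LinearMap.mem_ker]
      show L.H1π Y (E.z1Equiv L c) = 0
      rw [LevelSys.H1π_eq_zero_iff]
      exact (E.mem_B1_iff c.1).2 hc)).toAddMonoidHom

theorem h1Hom_mk (c : ↥(L.Z1 X)) : E.h1Hom L (L.H1π X c) = L.H1π Y (E.z1Equiv L c) := rfl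

theorem h1Hom_bijective : Function.Bijective (E.h1Hom L) := by
  constructor
  · rw [injective_iff_map_eq_zero]
    intro x hx
    obtain ⟨c, rfl⟩ := L.H1π_surjective X x
    rw [h1Hom_mk, LevelSys.H1π_eq_zero_iff] at hx
    rw [LevelSys.H1π_eq_zero_iff]
    exact (E.mem_B1_iff c.1).1 hx
  · intro y
    obtain ⟨c, rfl⟩ := L.H1π_surjective Y y
    exact ⟨L.H1π X ((E.z1Equiv L).symm c), by rw [h1Hom_mk, AddEquiv.apply_symm_apply]⟩

/-- `H¹(X) ≃+ H¹(Y)`. -/
def h1Equiv : L.H1 X ≃+ L.H1 Y := AddEquiv.ofBijective (E.h1Hom L) (E.h1Hom_bijective L)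

@[simp] theorem h1Equiv_mk (c : ↥(L.Z1 X)) :
    E.h1Equiv L (L.H1π X c) = L.H1π Y (E.z1Equiv L c) := rfl

/-! ### `H²` -/

/-- the comparison map on `H²` -/
def h2Hom : L.H2 X →+ L.H2 Y :=
  letI : Module (ZMod p) (L.H2 Y) := AddCommGroup.zmodModule (n := p) (G := L.H2 Y) (by
    intro y
    obtain ⟨c, rfl⟩ := L.H2π_surjective Y y
    rw [← map_nsmul]
    have : p • c = (E.z2Equiv L) (p • (E.z2Equiv L).symm c) := by
      rw [map_nsmul, AddEquiv.apply_symm_apply]
    rw [this]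
    have h0 : p • (E.z2Equiv L).symm c = 0 := by
      rw [← Nat.cast_smul_eq_nsmul (ZMod p), ZMod.natCast_self, zero_smul]
    rw [h0, map_zero, map_zero])
  (Submodule.liftQ ((L.B2 X).comap (L.Z2 X).subtype)
    (((L.H2π Y).toAddMonoidHom.comp (E.z2Equiv L).toAddMonoidHom).toZModLinearMap p)
    (by
      intro c hc
      rw [Submodule.mem_comap, Submodule.subtype_apply] at hc
      rw [LinearMap.mem_ker]
      show L.H2π Y (E.z2Equiv L c) = 0
      rw [LevelSys.H2π_eq_zero_iff]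
      exact (E.mem_B2_iff L c.1).2 hc)).toAddMonoidHom

theorem h2Hom_mk (c : ↥(L.Z2 X)) : E.h2Hom L (L.H2π X c) = L.H2π Y (E.z2Equiv L c) := rfl

theorem h2Hom_bijective : Function.Bijective (E.h2Hom L) := by
  constructor
  · rw [injective_iff_map_eq_zero]
    intro x hx
    obtain ⟨c, rfl⟩ := L.H2π_surjective X x
    rw [h2Hom_mk, LevelSys.H2π_eq_zero_iff] at hx
    rw [LevelSys.H2π_eq_zero_iff]
    exact (E.mem_B2_iff L c.1).1 hx
  · intro y
    obtain ⟨c, rfl⟩ := L.H2π_surjective Y y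
    exact ⟨L.H2π X ((E.z2Equiv L).symm c), by rw [h2Hom_mk, AddEquiv.apply_symm_apply]⟩

/-- `H²(X) ≃+ H²(Y)`. -/
def h2Equiv : L.H2 X ≃+ L.H2 Y := AddEquiv.ofBijective (E.h2Hom L) (E.h2Hom_bijective L)

@[simp] theorem h2Equiv_mk (c : ↥(L.Z2 X)) :
    E.h2Equiv L (L.H2π X c) = L.H2π Y (E.z2Equiv L c) := rfl

/-! ### Restriction and `Ш` -/

section Res

variable {G' : Type} [Group G'] {r : G' →* G} {L} {L' : LevelSys G'}
  (hr : IsLevelCompatible r L L')

theorem h1Equiv_resH1 (x : L.H1 X) :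
    (E.res r).h1Equiv L' (resH1 hr X x) = resH1 hr Y (E.h1Equiv L x) := by
  obtain ⟨c, rfl⟩ := L.H1π_surjective X x
  rfl

theorem h2Equiv_resH2 (x : L.H2 X) :
    (E.res r).h2Equiv L' (resH2 hr X x) = resH2 hr Y (E.h2Equiv L x) := by
  obtain ⟨c, rfl⟩ := L.H2π_surjective X x
  rfl

end Res

section Sha

variable {ι : Type} [Fintype ι] [DecidableEq ι] {Gv : ι → Type} [∀ v, Group (Gv v)]
variable {L} {Lv : ∀ v, LevelSys (Gv v)} {r : ∀ v, Gv v →* G}
variable (hr : ∀ v, IsLevelCompatible (r v) L (Lv v))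

theorem mem_Sha1_iff (x : L.H1 X) : E.h1Equiv L x ∈ Sha1 hr Y ↔ x ∈ Sha1 hr X := by
  rw [LinearMap.mem_ker, LinearMap.mem_ker]
  constructor
  · intro h
    funext v
    have h1 := congrFun h v
    rw [loc1_apply, ← E.h1Equiv_resH1 (hr v)] at h1
    rw [loc1_apply]
    exact ((E.res (r v)).h1Equiv (Lv v)).injective (h1.trans (map_zero _).symm)
  · intro h
    funext v
    have h1 := congrFun h v
    rw [loc1_apply] at h1
    rw [loc1_apply, ← E.h1Equiv_resH1 (hr v), h1]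
    exact map_zero _

theorem mem_Sha2_iff (x : L.H2 X) : E.h2Equiv L x ∈ Sha2 hr Y ↔ x ∈ Sha2 hr X := by
  rw [LinearMap.mem_ker, LinearMap.mem_ker]
  constructor
  · intro h
    funext v
    have h1 := congrFun h v
    rw [loc2_apply, ← E.h2Equiv_resH2 (hr v)] at h1
    rw [loc2_apply]
    exact ((E.res (r v)).h2Equiv (Lv v)).injective (h1.trans (map_zero _).symm)
  · intro h
    funext v
    have h1 := congrFun h v
    rw [loc2_apply] at h1
    rw [loc2_apply, ← E.h2Equiv_resH2 (hr v), h1]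
    exact map_zero _

/-- `Ш¹(X) ≃+ Ш¹(Y)`. -/
def sha1Equiv : ↥(Sha1 hr X) ≃+ ↥(Sha1 hr Y) where
  toFun x := ⟨E.h1Equiv L x.1, (E.mem_Sha1_iff hr x.1).2 x.2⟩
  invFun y := ⟨(E.h1Equiv L).symm y.1, (E.mem_Sha1_iff hr _).1 (by
    rw [AddEquiv.apply_symm_apply]; exact y.2)⟩
  left_inv x := Subtype.ext ((E.h1Equiv L).symm_apply_apply _)
  right_inv y := Subtype.ext ((E.h1Equiv L).apply_symm_apply _)
  map_add' a b := Subtype.ext (map_add (E.h1Equiv L) _ _)

/-- `Ш²(X) ≃+ Ш²(Y)`. -/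
def sha2Equiv : ↥(Sha2 hr X) ≃+ ↥(Sha2 hr Y) where
  toFun x := ⟨E.h2Equiv L x.1, (E.mem_Sha2_iff hr x.1).2 x.2⟩
  invFun y := ⟨(E.h2Equiv L).symm y.1, (E.mem_Sha2_iff hr _).1 (by
    rw [AddEquiv.apply_symm_apply]; exact y.2)⟩
  left_inv x := Subtype.ext ((E.h2Equiv L).symm_apply_apply _)
  right_inv y := Subtype.ext ((E.h2Equiv L).apply_symm_apply _)
  map_add' a b := Subtype.ext (map_add (E.h2Equiv L) _ _)

end Sha

/-! ### Dimensions -/

section Dim

variable [Algebra (ZMod p) k]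

include E in
theorem finrank_H0 : Module.finrank (ZMod p) ↥(LevelSys.H0 X) =
    Module.finrank (ZMod p) k * Module.finrank k ↥(LevelSys.H0 Y) :=
  finrank_eq_mul_of_addEquiv p E.h0Equiv

include E in
theorem finrank_H1 : Module.finrank (ZMod p) (L.H1 X) =
    Module.finrank (ZMod p) k * Module.finrank k (L.H1 Y) :=
  finrank_eq_mul_of_addEquiv p (E.h1Equiv L)

include E in
theorem finrank_H2 : Module.finrank (ZMod p) (L.H2 X) =
    Module.finrank (ZMod p) k * Module.finrank k (L.H2 Y) :=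
  finrank_eq_mul_of_addEquiv p (E.h2Equiv L)

variable {ι : Type} [Fintype ι] [DecidableEq ι] {Gv : ι → Type} [∀ v, Group (Gv v)]
variable {L} {Lv : ∀ v, LevelSys (Gv v)} {r : ∀ v, Gv v →* G}
variable (hr : ∀ v, IsLevelCompatible (r v) L (Lv v))

include E in
theorem finrank_Sha1 : Module.finrank (ZMod p) ↥(Sha1 hr X) =
    Module.finrank (ZMod p) k * Module.finrank k ↥(Sha1 hr Y) :=
  finrank_eq_mul_of_addEquiv p (E.sha1Equiv hr)

include E in
theorem finrank_Sha2 : Module.finrank (ZMod p) ↥(Sha2 hr X) =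
    Module.finrank (ZMod p) k * Module.finrank k ↥(Sha2 hr Y) :=
  finrank_eq_mul_of_addEquiv p (E.sha2Equiv hr)

end Dim

end SameMod

/-! ### Restriction of scalars of a `k`-representation -/

section FpOf

/-- The underlying group of `Y`, as an `𝔽_p`-vector space. -/
def FpCarrier (p : ℕ) {k : Type} [Field k] {G : Type} [Group G] (Y : Rep.{0, 0, 0} k G) :
    Type := Y.V

variable (q : ℕ) [Fact q.Prime] {k' : Type} [Field k'] [Algebra (ZMod q) k'] {G' : Type}
  [Group G']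

instance (Y : Rep.{0, 0, 0} k' G') : AddCommGroup (FpCarrier q Y) :=
  inferInstanceAs (AddCommGroup Y.V)

instance (Y : Rep.{0, 0, 0} k' G') : Module k' (FpCarrier q Y) :=
  inferInstanceAs (Module k' Y.V)

instance instModuleZModFpCarrier (Y : Rep.{0, 0, 0} k' G') : Module (ZMod q) (FpCarrier q Y) :=
  Module.compHom Y.V (algebraMap (ZMod q) k')

theorem fpCarrier_smul_def (Y : Rep.{0, 0, 0} k' G') (a : ZMod q) (y : FpCarrier q Y) :
    a • y = (algebraMap (ZMod q) k' a) • y := rfl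

instance (Y : Rep.{0, 0, 0} k' G') : IsScalarTower (ZMod q) k' (FpCarrier q Y) :=
  ⟨fun a b n => by
    rw [fpCarrier_smul_def, Algebra.smul_def, mul_smul]⟩

instance (Y : Rep.{0, 0, 0} k' G') [Module.Finite k' Y] : Module.Finite k' (FpCarrier q Y) :=
  inferInstanceAs (Module.Finite k' Y.V)

theorem rho_one_apply' (Y : Rep.{0, 0, 0} k' G') (m : Y.V) : Y.ρ 1 m = m := by
  rw [map_one, Module.End.one_apply]

theorem rho_mul_apply' (Y : Rep.{0, 0, 0} k' G') (g h : G') (m : Y.V) :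
    Y.ρ (g * h) m = Y.ρ g (Y.ρ h m) := by
  rw [map_mul, Module.End.mul_apply]

/-- the action of `G` on the `𝔽_p`-space underlying `Y` -/
def fpRho (Y : Rep.{0, 0, 0} k' G') : Representation (ZMod q) G' (FpCarrier q Y) where
  toFun g := AddMonoidHom.toZModLinearMap q
    (show FpCarrier q Y →+ FpCarrier q Y from (Y.ρ g).toAddMonoidHom)
  map_one' := by
    apply LinearMap.ext
    intro m
    exact rho_one_apply' Y m
  map_mul' g h := by
    apply LinearMap.ext
    intro m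
    exact rho_mul_apply' Y g h m

@[simp] theorem fpRho_apply (Y : Rep.{0, 0, 0} k' G') (g : G') (y : FpCarrier q Y) :
    fpRho q Y g y = Y.ρ g y := rfl

/-- **Restriction of scalars**: a `k`-representation as an `𝔽_p`-representation. -/
abbrev fpOf (Y : Rep.{0, 0, 0} k' G') : Rep.{0, 0, 0} (ZMod q) G' := Rep.of (fpRho q Y)

/-- `fpOf p Y` and `Y` are the same `G`-module. -/
def sameModFpOf (Y : Rep.{0, 0, 0} k' G') : SameMod q (fpOf q Y) Y where
  e := AddEquiv.refl Y.V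
  comm _ _ := rfl

end FpOf

end Fermat.Agent.S56.H596

end
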