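import Mathlib
import Fermat.Prelude.Def_GroupCohomology_Selmer

/-!
# S56, BRIDGE B2 (helper596): trace duality

`k` a finite extension of `𝔽_p = ZMod p`, `M` a finite-dimensional `k`-vector space, regarded as an
`𝔽_p`-vector space through ANY compatible module structure (`IsScalarTower (ZMod p) k M`).

* `trDual` : `Hom_k(M, k) ≃ₗ[𝔽_p] Hom_{𝔽_p}(M, 𝔽_p)`, `f ↦ Tr_{k/𝔽_p} ∘ f`;
* `formDual B hB` : for a nondegenerate `k`-bilinear form `B`, `M ≃ₗ[𝔽_p] Hom_{𝔽_p}(M, 𝔽_p)`,
  `m ↦ Tr_{k/𝔽_p} (B m ·)`;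
* `formDualEquiv` : if a representation `ρ` of `G` on the `𝔽_p`-space `M` preserves `B`, then
  `ρ ≅ ρ.dual`, hence `ρ.twist χ ≅ ρ.dual.twist χ` (`twistDualEquiv`) and
  `(ρ.twist χ).dual.twist χ ≅ ρ` (`dualTwistTwistEquiv`): in the Prelude's vocabulary
  `(Rep.of ρ).twist χ ≅ (Rep.of ρ).dualTwist χ` and `((Rep.of ρ).twist χ).dualTwist χ ≅ Rep.of ρ`.
* `finrank_zmod_eq` : `dim_{𝔽_p} = [k : 𝔽_p] · dim_k`.
-/

set_option autoImplicit false
set_option linter.unusedSectionVars false
set_option linter.unusedVariables false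
set_option linter.style.haveILetI false

namespace Fermat.Agent.S56.H596

noncomputable section

open Module

section Abstract

variable (p : ℕ) [Fact p.Prime] {k : Type} [Field k] [Algebra (ZMod p) k]
  [FiniteDimensional (ZMod p) k]
variable {M : Type} [AddCommGroup M] [Module k M] [Module (ZMod p) M]
  [IsScalarTower (ZMod p) k M] [FiniteDimensional k M]

/-- `dim_{𝔽_p} M = [k : 𝔽_p] · dim_k M`. -/
theorem finrank_zmod_eq (k : Type) [Field k] [Algebra (ZMod p) k] [FiniteDimensional (ZMod p) k]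
    (M : Type) [AddCommGroup M] [Module k M] [Module (ZMod p) M]
    [IsScalarTower (ZMod p) k M] :
    finrank (ZMod p) M = finrank (ZMod p) k * finrank k M :=
  (Module.finrank_mul_finrank (ZMod p) k M).symm

/-- `M` is finite-dimensional over `𝔽_p`. -/
theorem finiteDimensional_zmod (k : Type) [Field k] [Algebra (ZMod p) k]
    [FiniteDimensional (ZMod p) k] (M : Type) [AddCommGroup M] [Module k M] [Module (ZMod p) M]
    [IsScalarTower (ZMod p) k M] [FiniteDimensional k M] : FiniteDimensional (ZMod p) M :=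
  Module.Finite.trans k M

/-- `f ↦ Tr_{k/𝔽_p} ∘ f`, as an `𝔽_p`-linear map `Hom_k(M, k) → Hom_{𝔽_p}(M, 𝔽_p)`. -/
def trDualHom (k : Type) [Field k] [Algebra (ZMod p) k] (M : Type) [AddCommGroup M]
    [Module k M] [Module (ZMod p) M] [IsScalarTower (ZMod p) k M] :
    Module.Dual k M →ₗ[ZMod p] Module.Dual (ZMod p) M where
  toFun f := (Algebra.trace (ZMod p) k).comp (f.restrictScalars (ZMod p))
  map_add' f g := by
    ext m
    simp
  map_smul' c f := by
    ext m
    simp

@[simp] theorem trDualHom_apply (f : Module.Dual k M) (m : M) :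
    trDualHom p k M f m = Algebra.trace (ZMod p) k (f m) := rfl

theorem trDualHom_injective : Function.Injective (trDualHom p k M) := by
  rw [← LinearMap.ker_eq_bot, LinearMap.ker_eq_bot']
  intro f hf
  ext m
  have hnd := traceForm_nondegenerate (ZMod p) k
  refine hnd.1 (f m) (fun c => ?_)
  have h := congrArg (fun φ : Module.Dual (ZMod p) M => φ (c • m)) hf
  simp only [trDualHom_apply, map_smul, smul_eq_mul, LinearMap.zero_apply] at h
  rw [Algebra.traceForm_apply, mul_comm]
  exact h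

theorem finrank_dual_zmod :
    finrank (ZMod p) (Module.Dual k M) = finrank (ZMod p) (Module.Dual (ZMod p) M) := by
  haveI := finiteDimensional_zmod p k M
  rw [finrank_zmod_eq p k (Module.Dual k M), Subspace.dual_finrank_eq, Subspace.dual_finrank_eq,
    finrank_zmod_eq p k M]

/-- **Trace duality**: `Hom_k(M, k) ≃ Hom_{𝔽_p}(M, 𝔽_p)`, `f ↦ Tr_{k/𝔽_p} ∘ f`. -/
def trDual (k : Type) [Field k] [Algebra (ZMod p) k] [FiniteDimensional (ZMod p) k]
    (M : Type) [AddCommGroup M] [Module k M] [Module (ZMod p) M] [IsScalarTower (ZMod p) k M]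
    [FiniteDimensional k M] : Module.Dual k M ≃ₗ[ZMod p] Module.Dual (ZMod p) M :=
  haveI := finiteDimensional_zmod p k M
  haveI : FiniteDimensional (ZMod p) (Module.Dual k M) :=
    finiteDimensional_zmod p k (Module.Dual k M)
  LinearEquiv.ofInjectiveOfFinrankEq (trDualHom p k M) (trDualHom_injective p)
    (finrank_dual_zmod p)

@[simp] theorem trDual_apply (f : Module.Dual k M) (m : M) :
    trDual p k M f m = Algebra.trace (ZMod p) k (f m) := rfl

end Abstract

section Form

variable (p : ℕ) [Fact p.Prime] {k : Type} [Field k] [Algebra (ZMod p) k]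
  [FiniteDimensional (ZMod p) k]
variable {M : Type} [AddCommGroup M] [Module k M] [Module (ZMod p) M]
  [IsScalarTower (ZMod p) k M] [FiniteDimensional k M]

/-- `m ↦ Tr_{k/𝔽_p} (B m ·)`. -/
def formDualHom (B : M →ₗ[k] M →ₗ[k] k) : M →ₗ[ZMod p] Module.Dual (ZMod p) M :=
  (trDualHom p k M).comp (B.restrictScalars (ZMod p))

@[simp] theorem formDualHom_apply (B : M →ₗ[k] M →ₗ[k] k) (m n : M) :
    formDualHom p B m n = Algebra.trace (ZMod p) k (B m n) := rfl

theorem formDualHom_injective (B : M →ₗ[k] M →ₗ[k] k)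
    (hB : ∀ m, (∀ n, B m n = 0) → m = 0) : Function.Injective (formDualHom p B) := by
  rw [← LinearMap.ker_eq_bot, LinearMap.ker_eq_bot']
  intro m hm
  apply hB m
  intro n
  have h1 : trDualHom p k M (B m) = 0 := hm
  have h2 := trDualHom_injective p (h1.trans (map_zero _).symm)
  rw [h2, LinearMap.zero_apply]

/-- **Trace duality for a nondegenerate form**: `M ≃ Hom_{𝔽_p}(M, 𝔽_p)`,
`m ↦ Tr_{k/𝔽_p} (B m ·)`. -/
def formDual (B : M →ₗ[k] M →ₗ[k] k) (hB : ∀ m, (∀ n, B m n = 0) → m = 0) :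
    M ≃ₗ[ZMod p] Module.Dual (ZMod p) M :=
  haveI := finiteDimensional_zmod p k M
  LinearEquiv.ofInjectiveOfFinrankEq (formDualHom p B) (formDualHom_injective p B hB)
    Subspace.dual_finrank_eq.symm

@[simp] theorem formDual_apply (B : M →ₗ[k] M →ₗ[k] k) (hB : ∀ m, (∀ n, B m n = 0) → m = 0)
    (m n : M) : formDual p B hB m n = Algebra.trace (ZMod p) k (B m n) := rfl

variable {G : Type} [Group G]

/-- A representation preserving a nondegenerate form is self-dual. -/
def formDualEquiv (ρ : Representation (ZMod p) G M) (B : M →ₗ[k] M →ₗ[k] k)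
    (hB : ∀ m, (∀ n, B m n = 0) → m = 0) (hρ : ∀ g m n, B (ρ g m) (ρ g n) = B m n) :
    ρ.Equiv ρ.dual :=
  Representation.Equiv.mk (formDual p B hB) (fun g => by
    ext m n
    simp only [LinearMap.coe_comp, LinearEquiv.coe_coe, Function.comp_apply, formDual_apply,
      Representation.dual_apply, Module.Dual.transpose_apply]
    have h := hρ g m (ρ g⁻¹ n)
    rw [← Module.End.mul_apply, ← map_mul, mul_inv_cancel, map_one, Module.End.one_apply] at h
    rw [h])

@[simp] theorem formDualEquiv_apply (ρ : Representation (ZMod p) G M) (B : M →ₗ[k] M →ₗ[k] k)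
    (hB : ∀ m, (∀ n, B m n = 0) → m = 0) (hρ : ∀ g m n, B (ρ g m) (ρ g n) = B m n) (m n : M) :
    formDualEquiv p ρ B hB hρ m n = Algebra.trace (ZMod p) k (B m n) := rfl

/-- an equivalence of representations stays one after twisting both sides. -/
def twistEquiv {N N' : Type} [AddCommGroup N] [Module (ZMod p) N] [AddCommGroup N']
    [Module (ZMod p) N'] {σ : Representation (ZMod p) G N} {σ' : Representation (ZMod p) G N'}
    (e : σ.Equiv σ') (χ : G →* (ZMod p)ˣ) : (σ.twist χ).Equiv (σ'.twist χ) :=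
  Representation.Equiv.mk e.toLinearEquiv (fun g => by
    ext n
    have h := congrArg (fun f => f n) (e.toIntertwiningMap.isIntertwining' g)
    simp only [LinearMap.coe_comp, Function.comp_apply] at h
    simp only [LinearMap.coe_comp, Function.comp_apply,
      Representation.twist_apply_apply, map_smul]
    exact congrArg _ h)

@[simp] theorem twistEquiv_apply {N N' : Type} [AddCommGroup N] [Module (ZMod p) N]
    [AddCommGroup N'] [Module (ZMod p) N'] {σ : Representation (ZMod p) G N}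
    {σ' : Representation (ZMod p) G N'} (e : σ.Equiv σ') (χ : G →* (ZMod p)ˣ) (n : N) :
    twistEquiv p e χ n = e n := rfl

/-- `(ρ ⊗ χ)^∨ ⊗ χ = ρ^∨`. -/
theorem twist_dual_twist {N : Type} [AddCommGroup N] [Module (ZMod p) N]
    (σ : Representation (ZMod p) G N) (χ : G →* (ZMod p)ˣ) :
    (σ.twist χ).dual.twist χ = σ.dual := by
  ext g f n
  simp only [Representation.twist_apply_apply, Representation.dual_apply,
    Module.Dual.transpose_apply, LinearMap.smul_apply, smul_eq_mul, LinearMap.coe_comp,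
    Function.comp_apply, map_inv, map_smul]
  rw [← mul_assoc, ← Units.val_mul, mul_inv_cancel, Units.val_one, one_mul]

/-- **B2, first form**: `M(χ) ≅ M^∨(χ)` for a self-dual `M`. -/
def twistDualEquiv (ρ : Representation (ZMod p) G M) (B : M →ₗ[k] M →ₗ[k] k)
    (hB : ∀ m, (∀ n, B m n = 0) → m = 0) (hρ : ∀ g m n, B (ρ g m) (ρ g n) = B m n)
    (χ : G →* (ZMod p)ˣ) : (ρ.twist χ).Equiv (ρ.dual.twist χ) :=
  twistEquiv p (formDualEquiv p ρ B hB hρ) χ

@[simp] theorem twistDualEquiv_apply (ρ : Representation (ZMod p) G M)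
    (B : M →ₗ[k] M →ₗ[k] k) (hB : ∀ m, (∀ n, B m n = 0) → m = 0)
    (hρ : ∀ g m n, B (ρ g m) (ρ g n) = B m n) (χ : G →* (ZMod p)ˣ) (m n : M) :
    twistDualEquiv p ρ B hB hρ χ m n = Algebra.trace (ZMod p) k (B m n) := rfl

/-- **B2, second form**: `(M(χ))^∨(χ) ≅ M` for a self-dual `M`. -/
def dualTwistTwistEquiv (ρ : Representation (ZMod p) G M) (B : M →ₗ[k] M →ₗ[k] k)
    (hB : ∀ m, (∀ n, B m n = 0) → m = 0) (hρ : ∀ g m n, B (ρ g m) (ρ g n) = B m n)
    (χ : G →* (ZMod p)ˣ) : ((ρ.twist χ).dual.twist χ).Equiv ρ :=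
  (twist_dual_twist p ρ χ) ▸ (formDualEquiv p ρ B hB hρ).symm

end Form

/-! ### Restriction of scalars of a representation -/

section ResScalars

variable (p : ℕ) [Fact p.Prime] {k : Type} [Field k] [Algebra (ZMod p) k]
variable {M : Type} [AddCommGroup M] [Module k M] [Module (ZMod p) M]
  [IsScalarTower (ZMod p) k M] {G : Type} [Group G]

/-- A `k`-linear representation, regarded as an `𝔽_p`-linear representation. -/
def fpRep (σ : Representation k G M) : Representation (ZMod p) G M where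
  toFun g := (σ g).restrictScalars (ZMod p)
  map_one' := by
    ext m
    simp
  map_mul' g h := by
    ext m
    simp

@[simp] theorem fpRep_apply (σ : Representation k G M) (g : G) (m : M) :
    fpRep p σ g m = σ g m := rfl

end ResScalars

/-! ### The trace form on trace-zero endomorphisms -/

section EndZero

variable {k : Type} [Field k] {V : Type} [AddCommGroup V] [Module k V] [FiniteDimensional k V]
  {G : Type} [Group G]

/-- The trace-zero endomorphisms `End⁰ V`. -/
abbrev End0 (k : Type) [Field k] (V : Type) [AddCommGroup V] [Module k V] :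
    Submodule k (Module.End k V) :=
  LinearMap.ker (LinearMap.trace k V)

theorem rho_mul_rho_inv' (ρ : G →* Module.End k V) (g : G) : ρ g * ρ g⁻¹ = 1 := by
  rw [← map_mul, mul_inv_cancel, map_one]

theorem rho_inv_mul_rho' (ρ : G →* Module.End k V) (g : G) : ρ g⁻¹ * ρ g = 1 := by
  rw [← map_mul, inv_mul_cancel, map_one]

theorem trace_conj_rho (ρ : G →* Module.End k V) (g : G) (m : Module.End k V) :
    LinearMap.trace k V (ρ g * m * ρ g⁻¹) = LinearMap.trace k V m := by
  rw [LinearMap.trace_mul_comm, ← mul_assoc, rho_inv_mul_rho', one_mul]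

/-- The adjoint representation on `End⁰ V`: `g • m = ρ(g) m ρ(g)⁻¹`. -/
def adRep0 (ρ : G →* Module.End k V) : Representation k G (End0 k V) where
  toFun g :=
    { toFun := fun m => ⟨ρ g * m.1 * ρ g⁻¹, by
        rw [LinearMap.mem_ker, trace_conj_rho]
        exact m.2⟩
      map_add' := fun a b => by
        ext1
        simp [mul_add, add_mul]
      map_smul' := fun c a => by
        ext1
        simp }
  map_one' := by
    ext m : 2
    simp
  map_mul' g h := by
    ext m : 2
    simp [mul_assoc]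

@[simp] theorem adRep0_apply_coe (ρ : G →* Module.End k V) (g : G) (m : End0 k V) :
    ((adRep0 ρ g m : End0 k V) : Module.End k V) = ρ g * m.1 * ρ g⁻¹ := rfl

/-- The trace form `(a, b) ↦ tr (a b)` on `End⁰ V`. -/
def trForm0 (k : Type) [Field k] (V : Type) [AddCommGroup V] [Module k V] :
    End0 k V →ₗ[k] End0 k V →ₗ[k] k :=
  LinearMap.mk₂ k (fun a b => LinearMap.trace k V (a.1 * b.1))
    (fun a a' b => by simp [add_mul])
    (fun c a b => by simp)
    (fun a b b' => by simp [mul_add])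
    (fun c a b => by simp)

@[simp] theorem trForm0_apply (a b : End0 k V) :
    trForm0 k V a b = LinearMap.trace k V (a.1 * b.1) := rfl

/-- The trace form on `End V` is nondegenerate. -/
theorem eq_zero_of_trace_mul_eq_zero (a : Module.End k V)
    (h : ∀ b : Module.End k V, LinearMap.trace k V (a * b) = 0) : a = 0 := by
  ext v
  rw [LinearMap.zero_apply, ← Module.forall_dual_apply_eq_zero_iff k]
  intro φ
  have h1 := h (φ.smulRight v)
  have h2 : a * φ.smulRight v = φ.smulRight (a v) := by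
    ext x
    simp [LinearMap.smulRight_apply]
  rw [h2, LinearMap.trace_smulRight] at h1
  exact h1

/-- The trace form on `End⁰ V` is nondegenerate if `dim V ≠ 0` in `k`. -/
theorem trForm0_nondeg (hd : (Module.finrank k V : k) ≠ 0) (a : End0 k V)
    (h : ∀ b : End0 k V, trForm0 k V a b = 0) : a = 0 := by
  have ha : LinearMap.trace k V a.1 = 0 := a.2
  apply Subtype.ext
  apply eq_zero_of_trace_mul_eq_zero
  intro b
  set t : k := LinearMap.trace k V b / (Module.finrank k V : k) with ht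
  have hb0 : b - t • (1 : Module.End k V) ∈ End0 k V := by
    rw [LinearMap.mem_ker, map_sub, map_smul, LinearMap.trace_one, smul_eq_mul, ht,
      div_mul_cancel₀ _ hd, sub_self]
  have h1 := h ⟨_, hb0⟩
  rw [trForm0_apply] at h1
  simp only [mul_sub, mul_smul_comm, mul_one, map_sub, map_smul, ha, smul_zero, sub_zero]
    at h1
  exact h1

theorem trForm0_adRep0 (ρ : G →* Module.End k V) (g : G) (a b : End0 k V) :
    trForm0 k V (adRep0 ρ g a) (adRep0 ρ g b) = trForm0 k V a b := by
  simp only [trForm0_apply, adRep0_apply_coe]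
  have : ρ g * a.1 * ρ g⁻¹ * (ρ g * b.1 * ρ g⁻¹) = ρ g * (a.1 * b.1) * ρ g⁻¹ := by
    calc ρ g * a.1 * ρ g⁻¹ * (ρ g * b.1 * ρ g⁻¹)
        = ρ g * a.1 * (ρ g⁻¹ * ρ g) * b.1 * ρ g⁻¹ := by simp only [mul_assoc]
      _ = ρ g * (a.1 * b.1) * ρ g⁻¹ := by rw [rho_inv_mul_rho', mul_one]; simp only [mul_assoc]
  rw [this, trace_conj_rho]

end EndZero

/-! ### B2 for `ad⁰` -/

section B2

variable (p : ℕ) [Fact p.Prime] {k : Type} [Field k] [Algebra (ZMod p) k]
  [FiniteDimensional (ZMod p) k]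
variable {V : Type} [AddCommGroup V] [Module k V] [FiniteDimensional k V]
  [Module (ZMod p) (End0 k V)] [IsScalarTower (ZMod p) k (End0 k V)]
  {G : Type} [Group G]

/-- `ad⁰ρ` as an `𝔽_p`-representation. -/
def ad0Fp (ρ : G →* Module.End k V) : Representation (ZMod p) G (End0 k V) :=
  fpRep p (adRep0 ρ)

@[simp] theorem ad0Fp_apply_coe (ρ : G →* Module.End k V) (g : G) (m : End0 k V) :
    ((ad0Fp p ρ g m : End0 k V) : Module.End k V) = ρ g * m.1 * ρ g⁻¹ := rfl

/-- **B2**: `ad⁰(χ) ≅ (ad⁰)^∨(χ)`, `m ↦ Tr_{k/𝔽_p} tr (m ·)`. -/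
def ad0TwistDualEquiv (ρ : G →* Module.End k V) (hd : (Module.finrank k V : k) ≠ 0)
    (χ : G →* (ZMod p)ˣ) : ((ad0Fp p ρ).twist χ).Equiv ((ad0Fp p ρ).dual.twist χ) :=
  twistDualEquiv p (ad0Fp p ρ) (trForm0 k V) (trForm0_nondeg hd)
    (fun g m n => trForm0_adRep0 ρ g m n) χ

@[simp] theorem ad0TwistDualEquiv_apply (ρ : G →* Module.End k V)
    (hd : (Module.finrank k V : k) ≠ 0) (χ : G →* (ZMod p)ˣ) (m n : End0 k V) :
    ad0TwistDualEquiv p ρ hd χ m n =
      Algebra.trace (ZMod p) k (LinearMap.trace k V (m.1 * n.1)) := rfl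

/-- **B2'**: `(ad⁰(χ))^∨(χ) ≅ ad⁰`. -/
def ad0DualTwistTwistEquiv (ρ : G →* Module.End k V) (hd : (Module.finrank k V : k) ≠ 0)
    (χ : G →* (ZMod p)ˣ) : (((ad0Fp p ρ).twist χ).dual.twist χ).Equiv (ad0Fp p ρ) :=
  dualTwistTwistEquiv p (ad0Fp p ρ) (trForm0 k V) (trForm0_nondeg hd)
    (fun g m n => trForm0_adRep0 ρ g m n) χ

/-- **B2**, `Rep` form: `ad⁰(χ) ≅ (ad⁰).dualTwist χ` in the Prelude's vocabulary. -/
def ad0TwistIso (ρ : G →* Module.End k V) (hd : (Module.finrank k V : k) ≠ 0)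
    (χ : G →* (ZMod p)ˣ) :
    (Rep.of (ad0Fp p ρ)).twist χ ≅ (Rep.of (ad0Fp p ρ)).dualTwist χ :=
  Rep.mkIso (ad0TwistDualEquiv p ρ hd χ)

/-- **B2'**, `Rep` form: `(ad⁰(χ)).dualTwist χ ≅ ad⁰` in the Prelude's vocabulary. -/
def ad0DualTwistIso (ρ : G →* Module.End k V) (hd : (Module.finrank k V : k) ≠ 0)
    (χ : G →* (ZMod p)ˣ) :
    ((Rep.of (ad0Fp p ρ)).twist χ).dualTwist χ ≅ Rep.of (ad0Fp p ρ) :=
  Rep.mkIso (ad0DualTwistTwistEquiv p ρ hd χ)

end B2

/-! ### Two carriers: a pairing `M × M' → k` -/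

section Pairing

variable (p : ℕ) [Fact p.Prime] {k : Type} [Field k] [Algebra (ZMod p) k]
  [FiniteDimensional (ZMod p) k]
variable {M M' : Type} [AddCommGroup M] [Module k M] [Module (ZMod p) M]
  [IsScalarTower (ZMod p) k M] [FiniteDimensional k M]
  [AddCommGroup M'] [Module k M'] [Module (ZMod p) M']
  [IsScalarTower (ZMod p) k M'] [FiniteDimensional k M']

/-- `m ↦ Tr_{k/𝔽_p} (B m ·)`. -/
def pairDualHom (B : M →ₗ[k] M' →ₗ[k] k) : M →ₗ[ZMod p] Module.Dual (ZMod p) M' :=
  (trDualHom p k M').comp (B.restrictScalars (ZMod p))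

@[simp] theorem pairDualHom_apply (B : M →ₗ[k] M' →ₗ[k] k) (m : M) (n : M') :
    pairDualHom p B m n = Algebra.trace (ZMod p) k (B m n) := rfl

theorem pairDualHom_injective (B : M →ₗ[k] M' →ₗ[k] k)
    (hB : ∀ m, (∀ n, B m n = 0) → m = 0) : Function.Injective (pairDualHom p B) := by
  rw [← LinearMap.ker_eq_bot, LinearMap.ker_eq_bot']
  intro m hm
  apply hB m
  intro n
  have h1 : trDualHom p k M' (B m) = 0 := hm
  have h2 := trDualHom_injective p (h1.trans (map_zero _).symm)
  rw [h2, LinearMap.zero_apply]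

/-- **Trace duality for a left-nondegenerate pairing** of spaces of the same dimension:
`M ≃ Hom_{𝔽_p}(M', 𝔽_p)`, `m ↦ Tr_{k/𝔽_p} (B m ·)`. -/
def pairDual (B : M →ₗ[k] M' →ₗ[k] k) (hB : ∀ m, (∀ n, B m n = 0) → m = 0)
    (hdim : Module.finrank k M = Module.finrank k M') :
    M ≃ₗ[ZMod p] Module.Dual (ZMod p) M' :=
  haveI := finiteDimensional_zmod p k M
  haveI := finiteDimensional_zmod p k M'
  LinearEquiv.ofInjectiveOfFinrankEq (pairDualHom p B) (pairDualHom_injective p B hB)
    (by rw [Subspace.dual_finrank_eq, finrank_zmod_eq p k M, finrank_zmod_eq p k M', hdim])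

@[simp] theorem pairDual_apply (B : M →ₗ[k] M' →ₗ[k] k)
    (hB : ∀ m, (∀ n, B m n = 0) → m = 0) (hdim : Module.finrank k M = Module.finrank k M')
    (m : M) (n : M') : pairDual p B hB hdim m n = Algebra.trace (ZMod p) k (B m n) := rfl

variable {G : Type} [Group G]

/-- **B2, pairing form.**  If `B (ρ g m) (ρ' g n) = χ(g) · B m n`, then `ρ ≅ ρ'^∨ ⊗ χ`
(`= (Rep.of ρ').dualTwist χ` in the Prelude's vocabulary), via `m ↦ Tr_{k/𝔽_p} (B m ·)`. -/
def pairDualEquiv (ρ : Representation (ZMod p) G M) (ρ' : Representation (ZMod p) G M')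
    (χ : G →* (ZMod p)ˣ) (B : M →ₗ[k] M' →ₗ[k] k) (hB : ∀ m, (∀ n, B m n = 0) → m = 0)
    (hdim : Module.finrank k M = Module.finrank k M')
    (hρ : ∀ g m n, B (ρ g m) (ρ' g n) = algebraMap (ZMod p) k (χ g : ZMod p) * B m n) :
    ρ.Equiv (ρ'.dual.twist χ) :=
  Representation.Equiv.mk (pairDual p B hB hdim) (fun g => by
    ext m n
    simp only [LinearMap.coe_comp, LinearEquiv.coe_coe, Function.comp_apply, pairDual_apply,
      Representation.twist_apply_apply, Representation.dual_apply, LinearMap.smul_apply,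
      Module.Dual.transpose_apply, smul_eq_mul]
    have h := hρ g m (ρ' g⁻¹ n)
    rw [← Module.End.mul_apply, ← map_mul, mul_inv_cancel, map_one, Module.End.one_apply] at h
    rw [h, ← Algebra.smul_def, map_smul, smul_eq_mul])

@[simp] theorem pairDualEquiv_apply (ρ : Representation (ZMod p) G M)
    (ρ' : Representation (ZMod p) G M') (χ : G →* (ZMod p)ˣ) (B : M →ₗ[k] M' →ₗ[k] k)
    (hB : ∀ m, (∀ n, B m n = 0) → m = 0) (hdim : Module.finrank k M = Module.finrank k M')
    (hρ : ∀ g m n, B (ρ g m) (ρ' g n) = algebraMap (ZMod p) k (χ g : ZMod p) * B m n)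
    (m : M) (n : M') :
    pairDualEquiv p ρ ρ' χ B hB hdim hρ m n = Algebra.trace (ZMod p) k (B m n) := rfl

end Pairing

end

end Fermat.Agent.S56.H596
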