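import Fermat.Agent.S56.Br.H374.Tw
import Fermat.Agent.S56.H596.TraceDual
import Fermat.Agent.S56.H596.PushEquiv
import Fermat.Agent.S56.H596.ResFp
import Fermat.Agent.S55.PT.Top

/-!
# S56, BRIDGE B2 (helper596): `ad⁰ρ̄` and `ad⁰ρ̄(1)` over `𝔽_p`, and their Tate duality

`Br.adRep ρbar`, `Br.adTw ρbar p : Rep k G_ℚ` are helper374's `k`-linear representations.

* `adFp p ρbar := fpOf p (Br.adRep ρbar)`, `adTwFp p ρbar := fpOf p (Br.adTw ρbar p)`:
  their restrictions of scalars to `𝔽_p` (objects of `Rep (ZMod p) G_ℚ`);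
* `adFp_equiv_tdual : adFp ≃ₗ tdual p adTwFp`, `adTwFp_equiv_tdual : adTwFp ≃ₗ tdual p adFp`,
  both equivariant: `m ↦ Tr_{k/𝔽_p} tr (m ·)`   (`p` odd);
* dimension formulas: `finrank_Sha1_tdual_adTwFp`, `finrank_H0_tdual_adTwFp`, ...
-/

set_option autoImplicit false
set_option linter.unusedSectionVars false
set_option linter.unusedVariables false
set_option linter.style.haveILetI false

noncomputable section

namespace Fermat.Agent.S56.H596

open groupCohomology ExtCitation Fermat.Agent.S55.PT Fermat.Agent.S56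

variable (p : ℕ) [Fact p.Prime] {k : Type} [Field k] [CharP k p] [Algebra (ZMod p) k]
  (ρbar : ResidualGaloisRep k)

/-- `ad⁰ρ̄` over `𝔽_p`. -/
abbrev adFp : Rep.{0, 0, 0} (ZMod p) GQ := fpOf p (Br.adRep ρbar)

/-- `ad⁰ρ̄(1)` over `𝔽_p`. -/
abbrev adTwFp : Rep.{0, 0, 0} (ZMod p) GQ := fpOf p (Br.adTw ρbar p)

/-- `adFp` and `Br.adRep` are the same `G_ℚ`-module. -/
def sameAd : SameMod p (adFp p ρbar) (Br.adRep ρbar) := sameModFpOf p _

/-- `adTwFp` and `Br.adTw` are the same `G_ℚ`-module. -/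
def sameAdTw : SameMod p (adTwFp p ρbar) (Br.adTw ρbar p) := sameModFpOf p _

/-- the underlying endomorphism -/
def valFp (m : FpCarrier p (Br.adRep ρbar)) : Module.End k ρbar.V := Br.val ρbar m

/-- the underlying endomorphism -/
def valTwFp (m : FpCarrier p (Br.adTw ρbar p)) : Module.End k ρbar.V := Br.valTw ρbar p m

theorem valFp_ρ (g : GQ) (m : FpCarrier p (Br.adRep ρbar)) :
    valFp p ρbar (fpRho p (Br.adRep ρbar) g m) = ρbar.ρ g * valFp p ρbar m * ρbar.ρ g⁻¹ := rfl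

theorem valTwFp_ρ (g : GQ) (m : FpCarrier p (Br.adTw ρbar p)) :
    valTwFp p ρbar (fpRho p (Br.adTw ρbar p) g m) =
      ((Br.cycK k p g : kˣ) : k) • (ρbar.ρ g * valTwFp p ρbar m * ρbar.ρ g⁻¹) := rfl

theorem algebraMap_cycloChar (g : GQ) :
    algebraMap (ZMod p) k ((cycloChar p g : (ZMod p)ˣ) : ZMod p) = ((Br.cycK k p g : kˣ) : k) := by
  rw [Br.cycK_coe]
  exact congrArg (fun f : ZMod p →+* k => f ((cycloChar p g : (ZMod p)ˣ) : ZMod p))
    (RingHom.ext_zmod _ _)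

/-- the trace pairing `ad⁰ × ad⁰(1) → k` -/
def adPair : FpCarrier p (Br.adRep ρbar) →ₗ[k] FpCarrier p (Br.adTw ρbar p) →ₗ[k] k :=
  show ↥(End0 k ρbar.V) →ₗ[k] ↥(End0 k ρbar.V) →ₗ[k] k from trForm0 k ρbar.V

/-- the trace pairing `ad⁰(1) × ad⁰ → k` -/
def adPair' : FpCarrier p (Br.adTw ρbar p) →ₗ[k] FpCarrier p (Br.adRep ρbar) →ₗ[k] k :=
  show ↥(End0 k ρbar.V) →ₗ[k] ↥(End0 k ρbar.V) →ₗ[k] k from trForm0 k ρbar.V

theorem adPair_apply (m : FpCarrier p (Br.adRep ρbar)) (n : FpCarrier p (Br.adTw ρbar p)) :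
    adPair p ρbar m n = LinearMap.trace k ρbar.V (valFp p ρbar m * valTwFp p ρbar n) := rfl

theorem adPair'_apply (m : FpCarrier p (Br.adTw ρbar p)) (n : FpCarrier p (Br.adRep ρbar)) :
    adPair' p ρbar m n = LinearMap.trace k ρbar.V (valTwFp p ρbar m * valFp p ρbar n) := rfl

theorem two_ne_zero_cast (h2 : (2 : k) ≠ 0) : (Module.finrank k ρbar.V : k) ≠ 0 := by
  rw [ρbar.finrank_eq]
  exact_mod_cast h2

theorem adPair_nondeg (h2 : (2 : k) ≠ 0) (m : FpCarrier p (Br.adRep ρbar))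
    (h : ∀ n, adPair p ρbar m n = 0) : m = 0 :=
  trForm0_nondeg (two_ne_zero_cast ρbar h2) (show ↥(End0 k ρbar.V) from m) h

theorem adPair'_nondeg (h2 : (2 : k) ≠ 0) (m : FpCarrier p (Br.adTw ρbar p))
    (h : ∀ n, adPair' p ρbar m n = 0) : m = 0 :=
  trForm0_nondeg (two_ne_zero_cast ρbar h2) (show ↥(End0 k ρbar.V) from m) h

theorem conj_mul_conj (g : GQ) (a b : Module.End k ρbar.V) :
    ρbar.ρ g * a * ρbar.ρ g⁻¹ * (ρbar.ρ g * b * ρbar.ρ g⁻¹) = ρbar.ρ g * (a * b) * ρbar.ρ g⁻¹ := by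
  calc ρbar.ρ g * a * ρbar.ρ g⁻¹ * (ρbar.ρ g * b * ρbar.ρ g⁻¹)
      = ρbar.ρ g * a * (ρbar.ρ g⁻¹ * ρbar.ρ g) * b * ρbar.ρ g⁻¹ := by simp only [mul_assoc]
    _ = ρbar.ρ g * (a * b) * ρbar.ρ g⁻¹ := by
        rw [rho_inv_mul_rho', mul_one]; simp only [mul_assoc]

theorem adPair_ρ (g : GQ) (m : FpCarrier p (Br.adRep ρbar)) (n : FpCarrier p (Br.adTw ρbar p)) :
    adPair p ρbar (fpRho p (Br.adRep ρbar) g m) (fpRho p (Br.adTw ρbar p) g n) =
      algebraMap (ZMod p) k ((cycloChar p g : (ZMod p)ˣ) : ZMod p) * adPair p ρbar m n := by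
  rw [adPair_apply, adPair_apply, valFp_ρ, valTwFp_ρ, mul_smul_comm, map_smul, conj_mul_conj,
    trace_conj_rho, smul_eq_mul, algebraMap_cycloChar]

theorem adPair'_ρ (g : GQ) (m : FpCarrier p (Br.adTw ρbar p)) (n : FpCarrier p (Br.adRep ρbar)) :
    adPair' p ρbar (fpRho p (Br.adTw ρbar p) g m) (fpRho p (Br.adRep ρbar) g n) =
      algebraMap (ZMod p) k ((cycloChar p g : (ZMod p)ˣ) : ZMod p) * adPair' p ρbar m n := by
  rw [adPair'_apply, adPair'_apply, valFp_ρ, valTwFp_ρ, smul_mul_assoc, map_smul, conj_mul_conj,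
    trace_conj_rho, smul_eq_mul, algebraMap_cycloChar]

/-! ### The Tate dualities -/

section Dual

variable [Finite k]

instance instFiniteAdRep : Module.Finite k (Br.adRep ρbar) :=
  inferInstanceAs (Module.Finite k ↥(LinearMap.ker (LinearMap.trace k ρbar.V)))

instance instFiniteAdTw : Module.Finite k (Br.adTw ρbar p) :=
  inferInstanceAs (Module.Finite k ↥(LinearMap.ker (LinearMap.trace k ρbar.V)))

instance instFiniteAdFp : Module.Finite (ZMod p) (adFp p ρbar) :=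
  finiteDimensional_zmod p k (FpCarrier p (Br.adRep ρbar))

instance instFiniteAdTwFp : Module.Finite (ZMod p) (adTwFp p ρbar) :=
  finiteDimensional_zmod p k (FpCarrier p (Br.adTw ρbar p))

/-- `ad⁰ ≅ (ad⁰(1))^∨(1)` as representations over `𝔽_p`. -/
def adFpDualEquiv (h2 : (2 : k) ≠ 0) :
    (fpRho p (Br.adRep ρbar)).Equiv ((fpRho p (Br.adTw ρbar p)).dual.twist (cycloChar p)) :=
  pairDualEquiv p (fpRho p (Br.adRep ρbar)) (fpRho p (Br.adTw ρbar p)) (cycloChar p)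
    (adPair p ρbar) (adPair_nondeg p ρbar h2) rfl (adPair_ρ p ρbar)

/-- `ad⁰(1) ≅ (ad⁰)^∨(1)` as representations over `𝔽_p`. -/
def adTwFpDualEquiv (h2 : (2 : k) ≠ 0) :
    (fpRho p (Br.adTw ρbar p)).Equiv ((fpRho p (Br.adRep ρbar)).dual.twist (cycloChar p)) :=
  pairDualEquiv p (fpRho p (Br.adTw ρbar p)) (fpRho p (Br.adRep ρbar)) (cycloChar p)
    (adPair' p ρbar) (adPair'_nondeg p ρbar h2) rfl (adPair'_ρ p ρbar)

/-- **B2**: `adFp ≃ tdual p adTwFp`. -/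
def adFp_equiv_tdual (h2 : (2 : k) ≠ 0) :
    (adFp p ρbar) ≃ₗ[ZMod p] (tdual p (adTwFp p ρbar)) :=
  (adFpDualEquiv p ρbar h2).toLinearEquiv

theorem adFp_equiv_tdual_apply (h2 : (2 : k) ≠ 0) (m : FpCarrier p (Br.adRep ρbar))
    (n : FpCarrier p (Br.adTw ρbar p)) :
    adFp_equiv_tdual p ρbar h2 m n =
      Algebra.trace (ZMod p) k
        (LinearMap.trace k ρbar.V (valFp p ρbar m * valTwFp p ρbar n)) := rfl

theorem adFp_equiv_tdual_equivariant (h2 : (2 : k) ≠ 0) :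
    IsEquivariant (adFp_equiv_tdual p ρbar h2).toLinearMap := fun g a =>
  congrArg (fun f => f a) ((adFpDualEquiv p ρbar h2).isIntertwining' g)

/-- **B2**: `adTwFp ≃ tdual p adFp`. -/
def adTwFp_equiv_tdual (h2 : (2 : k) ≠ 0) :
    (adTwFp p ρbar) ≃ₗ[ZMod p] (tdual p (adFp p ρbar)) :=
  (adTwFpDualEquiv p ρbar h2).toLinearEquiv

theorem adTwFp_equiv_tdual_equivariant (h2 : (2 : k) ≠ 0) :
    IsEquivariant (adTwFp_equiv_tdual p ρbar h2).toLinearMap := fun g a =>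
  congrArg (fun f => f a) ((adTwFpDualEquiv p ρbar h2).isIntertwining' g)

/-! ### Dimension formulas -/

/-- `dim_{𝔽_p} Ш¹(tdual p (ad⁰(1))) = [k : 𝔽_p] · dim_k Ш¹(ad⁰)`. -/
theorem finrank_Sha1_tdual_adTwFp (h2 : (2 : k) ≠ 0) (T : Finset Nat.Primes) :
    Module.finrank (ZMod p) ↥(Sha1 (hrl T) (tdual p (adTwFp p ρbar))) =
      Module.finrank (ZMod p) k * Module.finrank k ↥(Sha1 (hrl T) (Br.adRep ρbar)) := by
  rw [← (sameAd p ρbar).finrank_Sha1 (hrl T)]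
  exact (finrank_Sha1_eq (hrl T) (adFp_equiv_tdual p ρbar h2)
    (adFp_equiv_tdual_equivariant p ρbar h2)).symm

/-- `dim_{𝔽_p} H⁰(G', tdual p (ad⁰(1))) = [k : 𝔽_p] · dim_k H⁰(G', ad⁰)`. -/
theorem finrank_H0_res_tdual_adTwFp (h2 : (2 : k) ≠ 0) {G' : Type} [Group G']
    (r : G' →* GQ) :
    Module.finrank (ZMod p) ↥(LevelSys.H0 (Rep.res r (tdual p (adTwFp p ρbar)))) =
      Module.finrank (ZMod p) k * Module.finrank k ↥(LevelSys.H0 (Rep.res r (Br.adRep ρbar))) := by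
  rw [← ((sameAd p ρbar).res r).finrank_H0]
  exact (finrank_H0_eq (A := Rep.res r (adFp p ρbar))
    (B := Rep.res r (tdual p (adTwFp p ρbar))) (adFp_equiv_tdual p ρbar h2)
    ((adFp_equiv_tdual_equivariant p ρbar h2).res r)).symm

/-- `dim_{𝔽_p} H⁰(tdual p (ad⁰(1))) = [k : 𝔽_p] · dim_k H⁰(ad⁰)`. -/
theorem finrank_H0_tdual_adTwFp (h2 : (2 : k) ≠ 0) :
    Module.finrank (ZMod p) ↥(LevelSys.H0 (tdual p (adTwFp p ρbar))) =
      Module.finrank (ZMod p) k * Module.finrank k ↥(LevelSys.H0 (Br.adRep ρbar)) := by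
  rw [← (sameAd p ρbar).finrank_H0]
  exact (finrank_H0_eq (adFp_equiv_tdual p ρbar h2)
    (adFp_equiv_tdual_equivariant p ρbar h2)).symm

end Dual

end Fermat.Agent.S56.H596

end
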