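import Fermat.Agent.S56.H716.SBDefs
import Fermat.Agent.S56.P3.Glue
import Fermat.Agent.S56.P3.H666.IRR
import Fermat.Agent.S56.P3.H254.Arith
import Fermat.Agent.S56.H596.Odd

/-!
# S56, GW wall, elementary leaves INV0 and ODD in the `adInv` language (helper596)

Under the standing hypotheses `Hyp` of S56 (`M = ad⁰ρ̄`, `M' = M(1)`):

* `adInv_top_eq_bot`  (INV0): `H⁰(G_ℚ, M) = 0`, i.e. `adInv ρbar ⊤ = ⊥`;
* `eq_zero_of_twAd_fixed` (INV0'): `H⁰(G_ℚ, M') = 0`: a trace-zero `m` with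
  `twAd ρbar σ a m = m` for all `σ` and all cyclotomic exponents `a` of `σ` is `0`;
* `adInv_complexConjugation` / `finrank_adInv_complexConjugation` (ODD):
  `H⁰(G_∞, M)` is the line spanned by `ρ̄(c)`, of dimension `1`;
* `adAnti`, `finrank_adAnti` (ODD'): the anti-invariants `{m : tr m = 0, ρ̄(c) m ρ̄(c)⁻¹ = -m}`
  (`= H⁰(G_∞, M')`) have dimension `2`.
-/

set_option autoImplicit false
set_option linter.unusedSectionVars false
set_option linter.unusedVariables false
set_option linter.style.haveILetI false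

namespace Fermat.Agent.S56.H596

noncomputable section

open IsLocalRing Polynomial
open Fermat.Agent.S56 Fermat.Agent.S56.H716

variable {𝒪 : Type} [CommRing 𝒪] [IsDomain 𝒪] [IsDiscreteValuationRing 𝒪] {p : ℕ}
  {ρbar : ResidualGaloisRep (ResidueField 𝒪)} {S Smin : Finset ℕ}

/-! ### INV0 -/

/-- **INV0**: `H⁰(G_ℚ, ad⁰ρ̄) = 0`. -/
theorem adInv_top_eq_bot (hyp : Hyp 𝒪 p ρbar S Smin) : adInv ρbar ⊤ = ⊥ := by
  haveI : Fact p.Prime := ⟨hyp.hp⟩
  rw [eq_bot_iff]
  intro m hm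
  rw [Submodule.mem_bot]
  by_contra hm0
  exact P3.H666.line_false ρbar.ρ p hyp.hp2 (P3.twHyp_of_hyp hyp) m hm0 hm.1
    (fun g => ⟨1, by rw [one_smul]; exact hm.2 g (Subgroup.mem_top g)⟩)

/-- every element of `G_ℚ` has a cyclotomic exponent on `μ_p` which is invertible in `k`. -/
theorem exists_isCycExp_ne_zero (hyp : Hyp 𝒪 p ρbar S Smin) (σ : GQ) :
    ∀ a : ℕ, IsCycExp p σ a → (a : ResidueField 𝒪) ≠ 0 := by
  intro a ha h0
  have hdet := P3.det_eq_of_isCycExp hyp.hdet ha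
  rw [h0] at hdet
  have h1 : LinearMap.det (ρbar.ρ σ) * LinearMap.det (ρbar.ρ σ⁻¹) = 1 := by
    rw [← map_mul, ← map_mul, mul_inv_cancel, map_one, map_one]
  rw [hdet, zero_mul] at h1
  exact zero_ne_one h1

/-- **INV0'**: `H⁰(G_ℚ, ad⁰ρ̄(1)) = 0`. -/
theorem eq_zero_of_twAd_fixed (hyp : Hyp 𝒪 p ρbar S Smin)
    (m : Module.End (ResidueField 𝒪) ρbar.V)
    (htr : LinearMap.trace (ResidueField 𝒪) ρbar.V m = 0)
    (hfix : ∀ (σ : GQ) (a : ℕ), IsCycExp p σ a → twAd ρbar σ a m = m) : m = 0 := by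
  haveI : Fact p.Prime := ⟨hyp.hp⟩
  by_contra hm0
  refine P3.H666.line_false ρbar.ρ p hyp.hp2 (P3.twHyp_of_hyp hyp) m hm0 htr (fun g => ?_)
  obtain ⟨a, ha⟩ := P3.H254.cycExpExists p g
  have ha0 := exists_isCycExp_ne_zero hyp g a ha
  refine ⟨(a : ResidueField 𝒪)⁻¹, ?_⟩
  have h := hfix g a ha
  rw [twAd] at h
  calc ρbar.ρ g * m * ρbar.ρ g⁻¹
      = (a : ResidueField 𝒪)⁻¹ • ((a : ResidueField 𝒪) • (ρbar.ρ g * m * ρbar.ρ g⁻¹)) := by
        rw [smul_smul, inv_mul_cancel₀ ha0, one_smul]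
    _ = (a : ResidueField 𝒪)⁻¹ • m := by rw [h]

/-- the twisted coboundary of `m` vanishes only for `m = 0` (injectivity of `m ↦ ∂m`). -/
theorem eq_zero_of_isTwCoboundaryOn_zero (hyp : Hyp 𝒪 p ρbar S Smin)
    (m : Module.End (ResidueField 𝒪) ρbar.V)
    (h : IsTwCoboundaryOn ρbar p ⊤ (0 : GQ → Module.End (ResidueField 𝒪) ρbar.V) m) :
    m = 0 := by
  refine eq_zero_of_twAd_fixed hyp m h.1 (fun σ a ha => ?_)
  have := h.2 σ (Subgroup.mem_top σ) a ha
  rw [Pi.zero_apply] at this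
  exact (sub_eq_zero.1 this.symm)

/-! ### ODD -/

theorem rho_complexConjugation_inv (ρbar : ResidualGaloisRep (ResidueField 𝒪)) :
    ρbar.ρ complexConjugation⁻¹ = ρbar.ρ complexConjugation := by
  have h : (complexConjugation : GQ)⁻¹ = complexConjugation :=
    inv_eq_of_mul_eq_one_left complexConjugation_mul_self
  rw [h]

theorem mem_adInv_zpowers_iff (ρbar : ResidualGaloisRep (ResidueField 𝒪)) (τ : GQ)
    (m : Module.End (ResidueField 𝒪) ρbar.V) :
    m ∈ adInv ρbar (Subgroup.zpowers τ) ↔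
      LinearMap.trace (ResidueField 𝒪) ρbar.V m = 0 ∧ ρbar.ρ τ * m = m * ρbar.ρ τ := by
  have hτ : ρbar.ρ τ * ρbar.ρ τ⁻¹ = 1 := by rw [← map_mul, mul_inv_cancel, map_one]
  have hτ' : ρbar.ρ τ⁻¹ * ρbar.ρ τ = 1 := by rw [← map_mul, inv_mul_cancel, map_one]
  constructor
  · rintro ⟨htr, h⟩
    refine ⟨htr, ?_⟩
    have h1 := h τ (Subgroup.mem_zpowers τ)
    calc ρbar.ρ τ * m = ρbar.ρ τ * m * (ρbar.ρ τ⁻¹ * ρbar.ρ τ) := by rw [hτ', mul_one]
      _ = (ρbar.ρ τ * m * ρbar.ρ τ⁻¹) * ρbar.ρ τ := by simp only [mul_assoc]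
      _ = m * ρbar.ρ τ := by rw [h1]
  · rintro ⟨htr, h⟩
    refine ⟨htr, fun σ hσ => ?_⟩
    -- the centraliser of `m` is a subgroup containing `τ`
    let C : Subgroup GQ :=
      { carrier := {σ | ρbar.ρ σ * m = m * ρbar.ρ σ}
        one_mem' := by
          show ρbar.ρ 1 * m = m * ρbar.ρ 1
          rw [map_one, one_mul, mul_one]
        mul_mem' := by
          intro a b ha hb
          show ρbar.ρ (a * b) * m = m * ρbar.ρ (a * b)
          have ha' : ρbar.ρ a * m = m * ρbar.ρ a := ha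
          have hb' : ρbar.ρ b * m = m * ρbar.ρ b := hb
          rw [map_mul, mul_assoc, hb', ← mul_assoc, ha', mul_assoc]
        inv_mem' := by
          intro a ha
          show ρbar.ρ a⁻¹ * m = m * ρbar.ρ a⁻¹
          have ha' : ρbar.ρ a * m = m * ρbar.ρ a := ha
          have e1 : ρbar.ρ a * ρbar.ρ a⁻¹ = 1 := by rw [← map_mul, mul_inv_cancel, map_one]
          have e2 : ρbar.ρ a⁻¹ * ρbar.ρ a = 1 := by rw [← map_mul, inv_mul_cancel, map_one]
          calc ρbar.ρ a⁻¹ * m = ρbar.ρ a⁻¹ * m * (ρbar.ρ a * ρbar.ρ a⁻¹) := by rw [e1, mul_one]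
            _ = ρbar.ρ a⁻¹ * (m * ρbar.ρ a) * ρbar.ρ a⁻¹ := by simp only [mul_assoc]
            _ = ρbar.ρ a⁻¹ * (ρbar.ρ a * m) * ρbar.ρ a⁻¹ := by rw [ha']
            _ = (ρbar.ρ a⁻¹ * ρbar.ρ a) * m * ρbar.ρ a⁻¹ := by simp only [mul_assoc]
            _ = m * ρbar.ρ a⁻¹ := by rw [e2, one_mul] }
    have hC : Subgroup.zpowers τ ≤ C := (Subgroup.zpowers_le).2 h
    have hσC : ρbar.ρ σ * m = m * ρbar.ρ σ := hC hσ
    have e1 : ρbar.ρ σ * ρbar.ρ σ⁻¹ = 1 := by rw [← map_mul, mul_inv_cancel, map_one]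
    rw [hσC, mul_assoc, e1, mul_one]

/-- **ODD**: `H⁰(G_∞, ad⁰ρ̄)` is the line spanned by `ρ̄(c)`. -/
theorem adInv_complexConjugation (hyp : Hyp 𝒪 p ρbar S Smin) :
    adInv ρbar (Subgroup.zpowers complexConjugation) =
      Submodule.span (ResidueField 𝒪) {ρbar.ρ complexConjugation} := by
  apply le_antisymm
  · intro m hm
    rw [mem_adInv_zpowers_iff] at hm
    rw [Submodule.mem_span_singleton]
    exact ⟨_, (eq_smul_of_commute_complexConjugation hyp m hm.1 hm.2).symm⟩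
  · rw [Submodule.span_le, Set.singleton_subset_iff, SetLike.mem_coe, mem_adInv_zpowers_iff]
    exact ⟨trace_rho_complexConjugation hyp, rfl⟩

theorem rho_complexConjugation_ne_zero (ρbar : ResidualGaloisRep (ResidueField 𝒪)) :
    ρbar.ρ complexConjugation ≠ 0 := by
  intro h0
  have h1 := rho_complexConjugation_sq ρbar
  rw [h0, mul_zero] at h1
  have h2 := congrArg (LinearMap.trace (ResidueField 𝒪) ρbar.V) h1
  rw [map_zero, LinearMap.trace_one, ρbar.finrank_eq] at h2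
  -- `0 = 2` in `k` does not immediately contradict; use `1 = 0` on `V` instead
  have hV : Nontrivial ρbar.V := by
    apply Module.nontrivial_of_finrank_pos (R := ResidueField 𝒪)
    rw [ρbar.finrank_eq]; norm_num
  obtain ⟨v, hv⟩ := exists_ne (0 : ρbar.V)
  have := congrArg (fun f : Module.End (ResidueField 𝒪) ρbar.V => f v) h1
  simp only [LinearMap.zero_apply, Module.End.one_apply] at this
  exact hv this.symm

/-- **ODD**: `dim H⁰(G_∞, ad⁰ρ̄) = 1`. -/
theorem finrank_adInv_complexConjugation (hyp : Hyp 𝒪 p ρbar S Smin) :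
    Module.finrank (ResidueField 𝒪) (adInv ρbar (Subgroup.zpowers complexConjugation)) = 1 := by
  rw [adInv_complexConjugation hyp]
  exact finrank_span_singleton (rho_complexConjugation_ne_zero ρbar)

/-! ### ODD' : anti-invariants -/

/-- The anti-invariants of complex conjugation on `ad⁰ρ̄` (`= H⁰(G_∞, ad⁰ρ̄(1))`). -/
def adAnti (ρbar : ResidualGaloisRep (ResidueField 𝒪)) :
    Submodule (ResidueField 𝒪) (Module.End (ResidueField 𝒪) ρbar.V) where
  carrier := {m | LinearMap.trace (ResidueField 𝒪) ρbar.V m = 0 ∧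
    ρbar.ρ complexConjugation * m * ρbar.ρ complexConjugation⁻¹ = -m}
  add_mem' := by
    rintro a b ⟨ha, ha'⟩ ⟨hb, hb'⟩
    refine ⟨by rw [map_add, ha, hb, add_zero], ?_⟩
    rw [mul_add, add_mul, ha', hb', neg_add]
  zero_mem' := ⟨map_zero _, by rw [mul_zero, zero_mul, neg_zero]⟩
  smul_mem' := by
    rintro r a ⟨ha, ha'⟩
    refine ⟨by rw [map_smul, ha, smul_zero], ?_⟩
    rw [mul_smul_comm, smul_mul_assoc, ha', smul_neg]

/-- the pair of functionals `m ↦ (tr m, tr (m ρ̄(c)))`. -/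
def trPair (ρbar : ResidualGaloisRep (ResidueField 𝒪)) :
    Module.End (ResidueField 𝒪) ρbar.V →ₗ[ResidueField 𝒪] ResidueField 𝒪 × ResidueField 𝒪 :=
  (LinearMap.trace (ResidueField 𝒪) ρbar.V).prod
    ((LinearMap.trace (ResidueField 𝒪) ρbar.V).comp
      (LinearMap.mulRight (ResidueField 𝒪) (ρbar.ρ complexConjugation)))

theorem trPair_apply (ρbar : ResidualGaloisRep (ResidueField 𝒪))
    (m : Module.End (ResidueField 𝒪) ρbar.V) :
    trPair ρbar m = (LinearMap.trace (ResidueField 𝒪) ρbar.V m,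
      LinearMap.trace (ResidueField 𝒪) ρbar.V (m * ρbar.ρ complexConjugation)) := rfl

theorem trPair_surjective (hyp : Hyp 𝒪 p ρbar S Smin) :
    Function.Surjective (trPair ρbar) := by
  have h2 := two_ne_zero_of_hyp hyp
  rintro ⟨x, y⟩
  refine ⟨(x / 2) • (1 : Module.End (ResidueField 𝒪) ρbar.V) +
    (y / 2) • ρbar.ρ complexConjugation, ?_⟩
  rw [trPair_apply, map_add, map_smul, map_smul, LinearMap.trace_one, ρbar.finrank_eq,
    trace_rho_complexConjugation hyp, add_mul, smul_mul_assoc, smul_mul_assoc, one_mul,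
    rho_complexConjugation_sq, map_add, map_smul, map_smul, LinearMap.trace_one,
    ρbar.finrank_eq, trace_rho_complexConjugation hyp]
  simp only [smul_eq_mul, mul_zero, add_zero, zero_add, Nat.cast_ofNat]
  rw [div_mul_cancel₀ _ h2, div_mul_cancel₀ _ h2]

theorem adAnti_eq_ker (hyp : Hyp 𝒪 p ρbar S Smin) :
    adAnti ρbar = LinearMap.ker (trPair ρbar) := by
  have h2 := two_ne_zero_of_hyp hyp
  ext m
  rw [LinearMap.mem_ker, trPair_apply, Prod.mk_eq_zero]
  show (_ ∧ _) ↔ _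
  rw [rho_complexConjugation_inv]
  constructor
  · rintro ⟨htr, h⟩
    refine ⟨htr, trace_mul_eq_zero_of_anticommute hyp m htr ?_⟩
    calc ρbar.ρ complexConjugation * m
        = ρbar.ρ complexConjugation * m *
            (ρbar.ρ complexConjugation * ρbar.ρ complexConjugation) := by
          rw [rho_complexConjugation_sq, mul_one]
      _ = (ρbar.ρ complexConjugation * m * ρbar.ρ complexConjugation) *
            ρbar.ρ complexConjugation := by simp only [mul_assoc]
      _ = -(m * ρbar.ρ complexConjugation) := by rw [h, neg_mul]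
  · rintro ⟨htr, h⟩
    refine ⟨htr, ?_⟩
    have h1 := end2_mul_add_mul ρbar.finrank_eq m (ρbar.ρ complexConjugation) htr
      (trace_rho_complexConjugation hyp)
    rw [h, zero_smul] at h1
    have h3 : ρbar.ρ complexConjugation * m = -(m * ρbar.ρ complexConjugation) :=
      eq_neg_of_add_eq_zero_right h1
    rw [h3, neg_mul, mul_assoc, rho_complexConjugation_sq, mul_one]

/-- **ODD'**: `dim H⁰(G_∞, ad⁰ρ̄(1)) = 2`. -/
theorem finrank_adAnti (hyp : Hyp 𝒪 p ρbar S Smin) :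
    Module.finrank (ResidueField 𝒪) (adAnti ρbar) = 2 := by
  rw [adAnti_eq_ker hyp]
  have h := LinearMap.finrank_range_add_finrank_ker (trPair ρbar)
  rw [LinearMap.range_eq_top.2 (trPair_surjective hyp), finrank_top, Module.finrank_prod,
    Module.finrank_self, Module.finrank_linearMap, ρbar.finrank_eq] at h
  omega

/-- the trace-zero endomorphisms have dimension `3`. -/
theorem finrank_ker_trace (hyp : Hyp 𝒪 p ρbar S Smin) :
    Module.finrank (ResidueField 𝒪)
      (LinearMap.ker (LinearMap.trace (ResidueField 𝒪) ρbar.V)) = 3 := by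
  have h2 := two_ne_zero_of_hyp hyp
  have hs : Function.Surjective (LinearMap.trace (ResidueField 𝒪) ρbar.V) := by
    intro x
    refine ⟨(x / 2) • (1 : Module.End (ResidueField 𝒪) ρbar.V), ?_⟩
    rw [map_smul, LinearMap.trace_one, ρbar.finrank_eq, smul_eq_mul, Nat.cast_ofNat,
      div_mul_cancel₀ _ h2]
  have h := LinearMap.finrank_range_add_finrank_ker (LinearMap.trace (ResidueField 𝒪) ρbar.V)
  rw [LinearMap.range_eq_top.2 hs, finrank_top, Module.finrank_self, Module.finrank_linearMap,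
    ρbar.finrank_eq] at h
  omega

end

end Fermat.Agent.S56.H596
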