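import Fermat.Agent.S56.H596.AdFp
import Fermat.Agent.S56.H596.Inv
import Fermat.Agent.S56.Br.H374.Frames
import Fermat.Agent.S56.H419.EulerSign

/-!
# S56, BASE: the numerical inequality of `Br.base_of_numeric` from `𝔽_p`-numerics (helper596)

`N = adTwFp p ρbar` (`ad⁰ρ̄(1)` over `𝔽_p`), `T` a finite set of primes.  From

* (E)  Tate's Euler characteristic formula for `N`: `H419.phi (globalLevels T) c N = 0`;
* (D)  Theorem D for `N`: `Ш²(N) ≃ Dual Ш¹(tdual p N)`;
* (TL) local top duality for `N` at all `v ∈ T`: `topPair` bijective;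
* (TG) global top duality for `N`: `topT3` bijective;

and the elementary facts INV0, ODD, B2 we get the `k`-numerics

  `dim_k Ш¹(ad⁰) + ∑_{v ∈ T} dim_k H⁰(G_v, ad⁰) + 1 = dim_k H¹_T(ad⁰(1))`

which is the hypothesis `hnum` of `Br.base_of_numeric` (helper374).
-/

set_option autoImplicit false
set_option linter.unusedSectionVars false
set_option linter.unusedVariables false
set_option linter.style.haveILetI false

noncomputable section

namespace Fermat.Agent.S56.H596

open groupCohomology ExtCitation Fermat.Agent.S55.PT Fermat.Agent.S56 Fermat.Agent.S56.H716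
open IsLocalRing

/-! ### Generic: `h² + dim T³ = dim Ш² + ∑_v h²_v` -/

section Generic

variable {k : Type} [Field k] {G : Type} [Group G]
variable {ι : Type} [Fintype ι] [DecidableEq ι] {Gv : ι → Type} [∀ v, Group (Gv v)]
variable {L : LevelSys G} {Lv : ∀ v, LevelSys (Gv v)} {r : ∀ v, Gv v →* G}
variable (hr : ∀ v, IsLevelCompatible (r v) L (Lv v)) (N : Rep.{0, 0, 0} k G)

theorem finrank_H2_add_T3 [FiniteDimensional k (L.H2 N)]
    [∀ v, FiniteDimensional k ((Lv v).H2 (Rep.res (r v) N))] :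
    Module.finrank k (L.H2 N) + Module.finrank k (T3 hr N) =
      Module.finrank k ↥(Sha2 hr N) + ∑ v, Module.finrank k ((Lv v).H2 (Rep.res (r v) N)) := by
  have h1 := LinearMap.finrank_range_add_finrank_ker (loc2 hr N)
  have h2 := Submodule.finrank_quotient_add_finrank (LinearMap.range (loc2 hr N))
  rw [Module.finrank_pi_fintype] at h2
  have h3 : Module.finrank k (T3 hr N) =
      Module.finrank k (((v : ι) → (Lv v).H2 (Rep.res (r v) N)) ⧸ LinearMap.range (loc2 hr N)) :=
    rfl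
  have h4 : Module.finrank k ↥(Sha2 hr N) = Module.finrank k ↥(LinearMap.ker (loc2 hr N)) := rfl
  omega

/-- `dim V^* = dim V` over a field, stated for an explicit carrier. -/
theorem finrank_dualSpace (V : Type) [AddCommGroup V] [Module k V] :
    Module.finrank k (Module.Dual k V) = Module.finrank k V :=
  Subspace.dual_finrank_eq

/-- restriction commutes with `dualTwist` -/
theorem res_dualTwist_eq (χ : G →* kˣ) {G' : Type} [Group G'] (s : G' →* G) :
    Rep.res s (N.dualTwist χ) = (Rep.res s N).dualTwist (χ.comp s) := by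
  have h : (N.ρ.dual.twist χ).comp s =
      (Representation.dual (N.ρ.comp s : Representation k G' N)).twist (χ.comp s) := by
    ext g f n
    simp [Representation.twist_apply_apply, Representation.dual_apply, map_inv]
  exact congrArg (fun ρ => Rep.of (k := k) (G := G') (X := Module.Dual k N) ρ) h

/-- `dim charHom χ N = dim H⁰(N.dualTwist χ)`. -/
theorem finrank_charHom (χ : G →* kˣ) :
    Module.finrank k ↥(charHom χ N) = Module.finrank k ↥(LevelSys.H0 (N.dualTwist χ)) := by
  rw [← H0_dualTwist_eq χ N]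

end Generic

/-! ### INV0 and ODD in `PT` vocabulary -/

section Concrete

variable {𝒪 : Type} [CommRing 𝒪] [IsDomain 𝒪] [IsDiscreteValuationRing 𝒪] {p : ℕ}
  [Fact p.Prime] [CharP (ResidueField 𝒪) p] [Algebra (ZMod p) (ResidueField 𝒪)]
  {ρbar : ResidualGaloisRep (ResidueField 𝒪)} {S Smin : Finset ℕ}

/-- **INV0**: `H⁰(G_ℚ, ad⁰ρ̄) = 0`. -/
theorem H0_adRep_eq_bot (hyp : Hyp 𝒪 p ρbar S Smin) : LevelSys.H0 (Br.adRep ρbar) = ⊥ := by
  rw [eq_bot_iff]
  intro m hm
  rw [Submodule.mem_bot]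
  have h1 : Br.val ρbar m ∈ adInv ρbar ⊤ :=
    (Br.mem_adInv_iff ρbar ⊤ _).2 ⟨m, rfl, fun σ _ => hm σ⟩
  rw [adInv_top_eq_bot hyp, Submodule.mem_bot] at h1
  exact Br.val_injective ρbar (h1.trans (map_zero _).symm)

/-- **INV0'**: `H⁰(G_ℚ, ad⁰ρ̄(1)) = 0`. -/
theorem H0_adTw_eq_bot (hyp : Hyp 𝒪 p ρbar S Smin) : LevelSys.H0 (Br.adTw ρbar p) = ⊥ := by
  rw [eq_bot_iff]
  intro m hm
  rw [Submodule.mem_bot]
  have h1 : Br.valTw ρbar p m = 0 := by
    refine eq_zero_of_twAd_fixed hyp _ (Br.trace_valTw ρbar p m) (fun σ a ha => ?_)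
    rw [← Br.valTw_ρ_of_isCycExp ρbar p ha, hm σ]
  exact Br.valTw_injective ρbar p (h1.trans (map_zero _).symm)

theorem cycK_complexConjugation (hyp : Hyp 𝒪 p ρbar S Smin) :
    ((Br.cycK (ResidueField 𝒪) p complexConjugation : (ResidueField 𝒪)ˣ) : ResidueField 𝒪)
      = -1 := by
  rw [← Br.natCast_eq_cycK (ResidueField 𝒪) (isCycExp_complexConjugation p hyp.hp.ne_zero),
    Nat.cast_sub hyp.hp.one_le, natCast_p_eq_zero hyp, Nat.cast_one, zero_sub]

/-- the `(-1)`-eigenspace of complex conjugation on `ad⁰ρ̄(1)` is `H⁰(G_∞, ad⁰ρ̄)` -/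
def minusPartEquiv (hyp : Hyp 𝒪 p ρbar S Smin) :
    ↥(H419.minusPart complexConjugation (adTwFp p ρbar)) ≃+
      ↥(adInv ρbar (Subgroup.zpowers complexConjugation)) where
  toFun n := ⟨valTwFp p ρbar n.1, by
    rw [mem_adInv_zpowers_iff]
    refine ⟨Br.trace_valTw ρbar p n.1, ?_⟩
    have h1 : fpRho p (Br.adTw ρbar p) complexConjugation n.1 = -n.1 := H419.mem_minusPart.1 n.2
    have h2 := congrArg (valTwFp p ρbar) h1
    rw [valTwFp_ρ, cycK_complexConjugation hyp, rho_complexConjugation_inv] at h2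
    have h3 : valTwFp p ρbar (-n.1) = - valTwFp p ρbar n.1 := (Br.valTw ρbar p).map_neg n.1
    rw [h3, neg_smul, one_smul, neg_inj] at h2
    calc ρbar.ρ complexConjugation * valTwFp p ρbar n.1
        = ρbar.ρ complexConjugation * valTwFp p ρbar n.1 *
            (ρbar.ρ complexConjugation * ρbar.ρ complexConjugation) := by
          rw [rho_complexConjugation_sq, mul_one]
      _ = (ρbar.ρ complexConjugation * valTwFp p ρbar n.1 * ρbar.ρ complexConjugation) *
            ρbar.ρ complexConjugation := by simp only [mul_assoc]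
      _ = valTwFp p ρbar n.1 * ρbar.ρ complexConjugation := by rw [h2]⟩
  invFun m := ⟨(show FpCarrier p (Br.adTw ρbar p) from
      Br.mkTw ρbar p m.1 ((mem_adInv_zpowers_iff ρbar complexConjugation m.1).1 m.2).1),
    H419.mem_minusPart.2 (by
      have hm := (mem_adInv_zpowers_iff ρbar complexConjugation m.1).1 m.2
      apply Br.valTw_injective ρbar p
      have h1 : Br.valTw ρbar p (fpRho p (Br.adTw ρbar p) complexConjugation
          (show FpCarrier p (Br.adTw ρbar p) from Br.mkTw ρbar p m.1 hm.1)) =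
          ((Br.cycK (ResidueField 𝒪) p complexConjugation : (ResidueField 𝒪)ˣ) :
            ResidueField 𝒪) •
            (ρbar.ρ complexConjugation * m.1 * ρbar.ρ complexConjugation⁻¹) := rfl
      have h2 : Br.valTw ρbar p
          (-(show FpCarrier p (Br.adTw ρbar p) from Br.mkTw ρbar p m.1 hm.1)) = - m.1 :=
        (Br.valTw ρbar p).map_neg _
      refine h1.trans (Eq.trans ?_ h2.symm)
      rw [cycK_complexConjugation hyp, rho_complexConjugation_inv, hm.2, mul_assoc,
        rho_complexConjugation_sq, mul_one, neg_smul, one_smul])⟩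
  left_inv n := rfl
  right_inv m := rfl
  map_add' a b := rfl

/-- **ODD**: `dim_{𝔽_p} (ad⁰ρ̄(1))^{c = -1} = [k : 𝔽_p]`. -/
theorem finrank_minusPart_adTwFp (hyp : Hyp 𝒪 p ρbar S Smin) :
    Module.finrank (ZMod p) ↥(H419.minusPart complexConjugation (adTwFp p ρbar)) =
      Module.finrank (ZMod p) (ResidueField 𝒪) := by
  rw [finrank_eq_mul_of_addEquiv p (k := ResidueField 𝒪) (minusPartEquiv hyp),
    finrank_adInv_complexConjugation hyp, mul_one]

end Concrete

/-! ### The numerical inequality -/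

section Main

variable {𝒪 : Type} [CommRing 𝒪] [IsDomain 𝒪] [IsDiscreteValuationRing 𝒪] {p : ℕ}
  [Fact p.Prime] [CharP (ResidueField 𝒪) p] [Algebra (ZMod p) (ResidueField 𝒪)]
  [Finite (ResidueField 𝒪)]
  {ρbar : ResidualGaloisRep (ResidueField 𝒪)} {S Smin : Finset ℕ}

theorem finrank_zmod_pos : 0 < Module.finrank (ZMod p) (ResidueField 𝒪) :=
  Module.finrank_pos

/-- local term: `dim_{𝔽_p} H²(G_v, N) = [k : 𝔽_p] · dim_k H⁰(G_v, ad⁰)` from local top duality. -/
theorem finrank_H2_loc (h2 : (2 : ResidueField 𝒪) ≠ 0) {G' : Type} [Group G'] (r : G' →* GQ)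
    (L' : LevelSys G')
    (inv' : L'.H2 (ofChar ((cycloChar p).comp r)) →ₗ[ZMod p] ZMod p)
    (hTL : Function.Bijective
      (topPair L' ((cycloChar p).comp r) inv' (Rep.res r (adTwFp p ρbar)))) :
    FiniteDimensional (ZMod p) (L'.H2 (Rep.res r (adTwFp p ρbar))) ∧
    Module.finrank (ZMod p) (L'.H2 (Rep.res r (adTwFp p ρbar))) =
      Module.finrank (ZMod p) (ResidueField 𝒪) *
        Module.finrank (ResidueField 𝒪) ↥(LevelSys.H0 (Rep.res r (Br.adRep ρbar))) := by
  have hfd : FiniteDimensional (ZMod p) (Rep.res r (adTwFp p ρbar)) :=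
    instFiniteAdTwFp p ρbar
  let e := LinearEquiv.ofBijective _ hTL
  refine ⟨Module.Finite.equiv e.symm, ?_⟩
  have hd := finrank_dualSpace (k := ZMod p)
    ↥(charHom ((cycloChar p).comp r) (Rep.res r (adTwFp p ρbar)))
  refine e.finrank_eq.trans (hd.trans ?_)
  rw [finrank_charHom, ← res_dualTwist_eq]
  exact finrank_H0_res_tdual_adTwFp p ρbar h2 r

/-- **NUM**: the `k`-numerics of `Br.base_of_numeric` from (E), (D), (TL), (TG) over `𝔽_p`. -/
theorem knum_of_fp (hyp : Hyp 𝒪 p ρbar S Smin) (T : Finset Nat.Primes)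
    [FiniteDimensional (ZMod p) ((globalLevels T).H1 (adTwFp p ρbar))]
    [FiniteDimensional (ZMod p) ((globalLevels T).H2 (adTwFp p ρbar))]
    (inv : InvFamily p T) (hrec : IsRecip (hrl T) (cycloChar p) inv)
    (hE : H419.phi (globalLevels T) complexConjugation (adTwFp p ρbar) = 0)
    (hD : Nonempty (↥(Sha2 (hrl T) (adTwFp p ρbar)) ≃ₗ[ZMod p]
      Module.Dual (ZMod p) ↥(Sha1 (hrl T) (tdual p (adTwFp p ρbar)))))
    (hTL : ∀ v : ↥T, Function.Bijective
      (topPair (localLevels v.1) (cycloLoc p v.1) (inv v) (Rep.res (rl v.1) (adTwFp p ρbar))))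
    (hTG : Function.Bijective (topT3 (hrl T) (adTwFp p ρbar) hrec)) :
    Module.finrank (ResidueField 𝒪) ↥(Sha1 (hrl T) (Br.adRep ρbar))
        + ∑ v ∈ T, Module.finrank (ResidueField 𝒪)
            ↥(LevelSys.H0 (Rep.res (rl v) (Br.adRep ρbar))) + 1
      = Module.finrank (ResidueField 𝒪) ((globalLevels T).H1 (Br.adTw ρbar p)) := by
  have h2 : (2 : ResidueField 𝒪) ≠ 0 := two_ne_zero_of_hyp hyp
  have hf : 0 < Module.finrank (ZMod p) (ResidueField 𝒪) := finrank_zmod_pos
  set f := Module.finrank (ZMod p) (ResidueField 𝒪) with hfdef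
  -- `h⁰(N) = 0`
  have hH0 : Module.finrank (ZMod p) ↥(LevelSys.H0 (adTwFp p ρbar)) = 0 := by
    rw [(sameAdTw p ρbar).finrank_H0, H0_adTw_eq_bot hyp, finrank_bot, mul_zero]
  -- `h¹(N) = f · h¹_k`
  have hH1 := (sameAdTw p ρbar).finrank_H1 (globalLevels T)
  -- `d⁻(N) = f`
  have hminus := finrank_minusPart_adTwFp (p := p) hyp
  -- the local terms
  have hloc := fun v : ↥T => finrank_H2_loc (ρbar := ρbar) h2 (rl v.1) (localLevels v.1) (inv v)
    (hTL v)
  haveI : ∀ v : ↥T, FiniteDimensional (ZMod p)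
      ((localLevels v.1).H2 (Rep.res (rl v.1) (adTwFp p ρbar))) := fun v => (hloc v).1
  -- `h² + dim T³ = dim Ш² + Σ h²_v`
  have hH2 := finrank_H2_add_T3 (hrl T) (adTwFp p ρbar)
  -- `dim T³ = 0`
  have hT3 : Module.finrank (ZMod p) (T3 (hrl T) (adTwFp p ρbar)) = 0 := by
    have hd := finrank_dualSpace (k := ZMod p) ↥(charHom (cycloChar p) (adTwFp p ρbar))
    refine (LinearEquiv.ofBijective _ hTG).finrank_eq.trans (hd.trans ?_)
    rw [finrank_charHom, finrank_H0_tdual_adTwFp p ρbar h2, H0_adRep_eq_bot hyp, finrank_bot,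
      mul_zero]
  -- `dim Ш² = f · dim_k Ш¹(ad⁰)`
  have hSha2 : Module.finrank (ZMod p) ↥(Sha2 (hrl T) (adTwFp p ρbar)) =
      f * Module.finrank (ResidueField 𝒪) ↥(Sha1 (hrl T) (Br.adRep ρbar)) := by
    obtain ⟨e⟩ := hD
    have hd := finrank_dualSpace (k := ZMod p) ↥(Sha1 (hrl T) (tdual p (adTwFp p ρbar)))
    refine e.finrank_eq.trans (hd.trans ?_)
    exact finrank_Sha1_tdual_adTwFp p ρbar h2 T
  -- the sum of the local terms
  have hsum : ∑ v : ↥T, Module.finrank (ZMod p)
      ((localLevels v.1).H2 (Rep.res (rl v.1) (adTwFp p ρbar))) =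
      f * ∑ v ∈ T, Module.finrank (ResidueField 𝒪)
        ↥(LevelSys.H0 (Rep.res (rl v) (Br.adRep ρbar))) := by
    rw [Finset.mul_sum, ← Finset.sum_coe_sort T]
    exact Finset.sum_congr rfl (fun v _ => (hloc v).2)
  -- Euler characteristic
  have hE' : (Module.finrank (ZMod p) ↥(LevelSys.H0 (adTwFp p ρbar)) : ℤ)
      - Module.finrank (ZMod p) ((globalLevels T).H1 (adTwFp p ρbar))
      + Module.finrank (ZMod p) ((globalLevels T).H2 (adTwFp p ρbar))
      + Module.finrank (ZMod p) ↥(H419.minusPart complexConjugation (adTwFp p ρbar)) = 0 := hE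
  rw [hH0, hH1, hminus] at hE'
  rw [hT3, hSha2, hsum] at hH2
  have key : f * Module.finrank (ResidueField 𝒪) ((globalLevels T).H1 (Br.adTw ρbar p)) =
      f * (Module.finrank (ResidueField 𝒪) ↥(Sha1 (hrl T) (Br.adRep ρbar))
        + ∑ v ∈ T, Module.finrank (ResidueField 𝒪)
            ↥(LevelSys.H0 (Rep.res (rl v) (Br.adRep ρbar))) + 1) := by
    have : (f * Module.finrank (ResidueField 𝒪) ((globalLevels T).H1 (Br.adTw ρbar p)) : ℤ) =
        Module.finrank (ZMod p) ((globalLevels T).H2 (adTwFp p ρbar)) + f := by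
      push_cast at hE' ⊢
      linarith
    have h3 : f * Module.finrank (ResidueField 𝒪) ((globalLevels T).H1 (Br.adTw ρbar p)) =
        Module.finrank (ZMod p) ((globalLevels T).H2 (adTwFp p ρbar)) + f := by
      exact_mod_cast this
    rw [h3, mul_add, mul_add, mul_one]
    omega
  exact (Nat.eq_of_mul_eq_mul_left hf key).symm

end Main

end Fermat.Agent.S56.H596

end
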